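import Mathlib
import Fermat.Agent.S30.Hecke.DoubleCoset

/-!
# PROJECT R (S41), slice R-M2a: two-group coset data and their operators on `Hom(-, A)`

The one-group `S30/Hecke/DoubleCoset.CosetData` describes a double coset `Γ α Γ` and its operator on
`Hom(Γ, A)`.  For the degeneracy maps between the levels `N` and `N q` we need the version with
TWO groups: `ι' : Γ' →* G`, `ι : Γ →* G`, representatives `rep : X → G` of `ι'(Γ') \ ι'(Γ') α ι(Γ)`,
the right action `perm : Γ → Perm X` and the cocycle `coc : Γ → X → Γ'` with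

  `rep x * ι g = ι' (coc g x) * rep (perm g x)`.

* `CosetData2 ι' ι X`, `heckeHom D : (Additive Γ' →+ A) →+ (Additive Γ →+ A)`,
  `(heckeHom D φ) g = ∑ x, φ (coc g x)`; `heckeLin R D`; `comp_heckeHom` (naturality in `A`);
* `ofExists` (from existence and uniqueness), `eq_of_rel`;
* `ofCosetData` : the one-group data of main are instances, with the same operator;
* `comp D₁ D₂` on `X₁ × X₂` with `heckeHom (comp D₁ D₂) = heckeHom D₂ ∘ heckeHom D₁`;
* `heckeHom_eq_of_reps` : independence of the representatives;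
* `sum D₁ D₂` on `X₁ ⊕ X₂`;
* `conjData w f` (`X = Unit`, `rep = w`) : composition with a homomorphism `f : Γ →* Γ'` induced by
  conjugation with `w`; `resData` the special case `w = 1`;
* `heckeHom_comp_of_section` : *corestriction after restriction is multiplication by the index*.
-/

set_option autoImplicit false
set_option linter.unusedSectionVars false

namespace Fermat.Agent.S41.Deg.TwoGroup

open Fermat.Agent.S30.Hecke.DoubleCoset

variable {Γ'' Γ' Γ G : Type*} [Group Γ''] [Group Γ'] [Group Γ] [Group G]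

/-- representatives of the cosets `ι'(Γ') \ ι'(Γ') α ι(Γ)`, with the right action of `Γ` on them and
the associated `Γ'`-valued cocycle -/
structure CosetData2 (ι' : Γ' →* G) (ι : Γ →* G) (X : Type*) where
  /-- the representatives -/
  rep : X → G
  /-- the right action of `Γ` on the set of cosets -/
  perm : Γ → Equiv.Perm X
  /-- the cocycle -/
  coc : Γ → X → Γ'
  rel : ∀ g x, rep x * ι g = ι' (coc g x) * rep (perm g x)
  perm_mul : ∀ g h x, perm (g * h) x = perm h (perm g x)
  coc_mul : ∀ g h x, coc (g * h) x = coc g x * coc h (perm g x)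

namespace CosetData2

section Basic

variable {ι' : Γ' →* G} {ι : Γ →* G} {X : Type*} (D : CosetData2 ι' ι X)

theorem perm_one (x : X) : D.perm 1 x = x := by
  have h := D.perm_mul 1 1 x
  rw [mul_one] at h
  exact ((D.perm 1).injective h).symm

theorem coc_one (x : X) : D.coc 1 x = 1 := by
  have h := D.coc_mul 1 1 x
  rw [mul_one, D.perm_one] at h
  exact (mul_eq_left.mp h.symm)

theorem perm_inv (g : Γ) (x : X) : D.perm g⁻¹ (D.perm g x) = x := by
  rw [← D.perm_mul, mul_inv_cancel, D.perm_one]

theorem perm_inv' (g : Γ) (x : X) : D.perm g (D.perm g⁻¹ x) = x := by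
  rw [← D.perm_mul, inv_mul_cancel, D.perm_one]

theorem coc_inv (g : Γ) (x : X) : D.coc g⁻¹ (D.perm g x) = (D.coc g x)⁻¹ := by
  have h := D.coc_mul g g⁻¹ x
  rw [mul_inv_cancel, D.coc_one] at h
  exact eq_inv_of_mul_eq_one_right h.symm

theorem perm_pow (g : Γ) (m : ℕ) (x : X) : D.perm (g ^ m) x = (D.perm g ^ m) x := by
  induction m with
  | zero => rw [pow_zero, pow_zero, D.perm_one, Equiv.Perm.one_apply]
  | succ m ih => rw [pow_succ, D.perm_mul, ih, pow_succ', Equiv.Perm.mul_apply]

/-- on a point fixed by `g`, the cocycle is the conjugate of `g` by the representative -/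
theorem map_coc_of_fixed {g : Γ} {x : X} (h : D.perm g x = x) :
    ι' (D.coc g x) = D.rep x * ι g * (D.rep x)⁻¹ := by
  have h1 := D.rel g x
  rw [h] at h1
  rw [h1, mul_inv_cancel_right]

end Basic

section Hom

variable {ι' : Γ' →* G} {ι : Γ →* G} {X : Type*} (D : CosetData2 ι' ι X)
variable [Fintype X] {A : Type*} [AddCommGroup A]

/-- the cocycle of a power, after an additive character -/
theorem map_coc_pow (φ : Additive Γ' →+ A) (g : Γ) (m : ℕ) (x : X) :
    φ (Additive.ofMul (D.coc (g ^ m) x)) =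
      ∑ i ∈ Finset.range m, φ (Additive.ofMul (D.coc g ((D.perm g ^ i) x))) := by
  induction m with
  | zero => rw [pow_zero, D.coc_one, Finset.range_zero, Finset.sum_empty, ofMul_one, map_zero]
  | succ m ih =>
    rw [pow_succ, D.coc_mul, ofMul_mul, map_add, ih, D.perm_pow, Finset.sum_range_succ]

/-- the operator on one homomorphism -/
def heckeFun (φ : Additive Γ' →+ A) : Additive Γ →+ A :=
  AddMonoidHom.mk' (fun g => ∑ x, φ (Additive.ofMul (D.coc (Additive.toMul g) x))) (by
    intro g h
    show ∑ x, φ (Additive.ofMul (D.coc (Additive.toMul g * Additive.toMul h) x)) = _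
    have h1 : ∀ x, φ (Additive.ofMul (D.coc (Additive.toMul g * Additive.toMul h) x)) =
        φ (Additive.ofMul (D.coc (Additive.toMul g) x)) +
          φ (Additive.ofMul (D.coc (Additive.toMul h) (D.perm (Additive.toMul g) x))) := by
      intro x
      rw [D.coc_mul, ofMul_mul, map_add]
    rw [Finset.sum_congr rfl fun x _ => h1 x, Finset.sum_add_distrib]
    congr 1
    exact Equiv.sum_comp (D.perm (Additive.toMul g))
      (fun y => φ (Additive.ofMul (D.coc (Additive.toMul h) y))))

theorem heckeFun_apply (φ : Additive Γ' →+ A) (g : Γ) :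
    D.heckeFun φ (Additive.ofMul g) = ∑ x, φ (Additive.ofMul (D.coc g x)) := rfl

/-- **the double-coset operator** `Hom(Γ', A) → Hom(Γ, A)` -/
def heckeHom : (Additive Γ' →+ A) →+ (Additive Γ →+ A) where
  toFun := D.heckeFun
  map_zero' := by
    refine AddMonoidHom.ext fun g => ?_
    show ∑ x, (0 : Additive Γ' →+ A) _ = 0
    simp
  map_add' φ ψ := by
    refine AddMonoidHom.ext fun g => ?_
    show ∑ x, (φ + ψ) _ = ∑ x, φ _ + ∑ x, ψ _
    rw [← Finset.sum_add_distrib]
    rfl

theorem heckeHom_apply (φ : Additive Γ' →+ A) (g : Γ) :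
    D.heckeHom φ (Additive.ofMul g) = ∑ x, φ (Additive.ofMul (D.coc g x)) := rfl

/-- **the cycle lemma**: `heckeHom D φ` vanishes at `g` as soon as `φ` vanishes on the cocycles
`coc (g ^ m) x` of the powers of `g` at their fixed points -/
theorem heckeHom_apply_eq_zero [DecidableEq X] (φ : Additive Γ' →+ A) (g : Γ)
    (h : ∀ (x : X) (m : ℕ), 0 < m → D.perm (g ^ m) x = x →
      φ (Additive.ofMul (D.coc (g ^ m) x)) = 0) :
    D.heckeHom φ (Additive.ofMul g) = 0 := by
  rw [heckeHom_apply]
  refine sum_eq_zero_of_orbit_sums (D.perm g) (fun x => φ (Additive.ofMul (D.coc g x))) ?_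
    Finset.univ (fun x _ => Finset.mem_univ _)
  intro x m hm hx
  rw [← D.perm_pow] at hx
  rw [← D.map_coc_pow]
  exact h x m hm hx

/-- the `R`-linear version -/
def heckeLin (R : Type*) [Semiring R] [Module R A] :
    (Additive Γ' →+ A) →ₗ[R] (Additive Γ →+ A) where
  toFun := D.heckeHom
  map_add' := map_add _
  map_smul' c φ := by
    refine AddMonoidHom.ext fun g => ?_
    show ∑ x, (c • φ) _ = c • ∑ x, φ _
    rw [Finset.smul_sum]
    rfl

theorem heckeLin_apply (R : Type*) [Semiring R] [Module R A] (φ : Additive Γ' →+ A) :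
    D.heckeLin R φ = D.heckeHom φ := rfl

/-- naturality in the coefficients -/
theorem comp_heckeHom {B : Type*} [AddCommGroup B] (f : A →+ B) (φ : Additive Γ' →+ A) :
    f.comp (D.heckeHom φ) = D.heckeHom (f.comp φ) := by
  refine AddMonoidHom.ext fun g => ?_
  show f (∑ x, φ _) = ∑ x, f (φ _)
  rw [map_sum]

end Hom

/-! ### the one-group data of main -/

section OfCosetData

variable {ι : Γ →* G} {X : Type*}

/-- a one-group coset datum of `S30/Hecke/DoubleCoset` as a two-group datum -/
def ofCosetData (D : CosetData ι X) : CosetData2 ι ι X where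
  rep := D.rep
  perm := D.perm
  coc := D.coc
  rel := D.rel
  perm_mul := D.perm_mul
  coc_mul := D.coc_mul

theorem heckeHom_ofCosetData [Fintype X] {A : Type*} [AddCommGroup A] (D : CosetData ι X) :
    ((ofCosetData D).heckeHom : (Additive Γ →+ A) →+ (Additive Γ →+ A)) = D.heckeHom := rfl

end OfCosetData

/-! ### construction from existence and uniqueness -/

section OfExists

variable {ι' : Γ' →* G} {ι : Γ →* G} {X : Type*} (hι' : Function.Injective ι') (rep : X → G)
  (hex : ∀ (x : X) (g : Γ), ∃ (x' : X) (g' : Γ'), rep x * ι g = ι' g' * rep x')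
  (huniq : ∀ (x x' : X) (g : Γ'), rep x = ι' g * rep x' → x = x')

/-- the coset of `rep x * ι g` -/
noncomputable def permFun2 (g : Γ) (x : X) : X := (hex x g).choose

/-- the cocycle -/
noncomputable def cocFun2 (g : Γ) (x : X) : Γ' := (hex x g).choose_spec.choose

theorem rel_fun2 (g : Γ) (x : X) :
    rep x * ι g = ι' (cocFun2 rep hex g x) * rep (permFun2 rep hex g x) :=
  (hex x g).choose_spec.choose_spec

include hι' huniq in
theorem permFun2_cocFun2_unique {g : Γ} {g' : Γ'} {x x' : X}
    (h : rep x * ι g = ι' g' * rep x') :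
    permFun2 rep hex g x = x' ∧ cocFun2 rep hex g x = g' := by
  have h1 := rel_fun2 rep hex g x
  rw [h] at h1
  have h2 : rep (permFun2 rep hex g x) = ι' ((cocFun2 rep hex g x)⁻¹ * g') * rep x' := by
    rw [map_mul, map_inv, mul_assoc, h1, inv_mul_cancel_left]
  have h3 : permFun2 rep hex g x = x' := huniq _ _ _ h2
  refine ⟨h3, ?_⟩
  rw [h3] at h1
  exact (hι' (mul_right_cancel h1)).symm

include hι' huniq in
theorem permFun2_cocFun2_mul (g h : Γ) (x : X) :
    permFun2 rep hex (g * h) x = permFun2 rep hex h (permFun2 rep hex g x) ∧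
      cocFun2 rep hex (g * h) x =
        cocFun2 rep hex g x * cocFun2 rep hex h (permFun2 rep hex g x) := by
  apply permFun2_cocFun2_unique hι' rep hex huniq
  rw [map_mul, ← mul_assoc, rel_fun2 rep hex g x, mul_assoc,
    rel_fun2 rep hex h (permFun2 rep hex g x), ← mul_assoc, ← map_mul]

include hι' huniq in
theorem permFun2_one (x : X) : permFun2 rep hex 1 x = x :=
  (permFun2_cocFun2_unique hι' rep hex huniq (g := 1) (g' := 1) (x := x) (x' := x)
    (by rw [map_one, mul_one, map_one, one_mul])).1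

/-- **coset data from existence and uniqueness of the coset of `rep x * ι g`** -/
noncomputable def ofExists : CosetData2 ι' ι X where
  rep := rep
  perm g :=
    { toFun := permFun2 rep hex g
      invFun := permFun2 rep hex g⁻¹
      left_inv := fun x => by
        rw [← (permFun2_cocFun2_mul hι' rep hex huniq g g⁻¹ x).1, mul_inv_cancel,
          permFun2_one hι' rep hex huniq]
      right_inv := fun x => by
        rw [← (permFun2_cocFun2_mul hι' rep hex huniq g⁻¹ g x).1, inv_mul_cancel,
          permFun2_one hι' rep hex huniq] }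
  coc := cocFun2 rep hex
  rel := rel_fun2 rep hex
  perm_mul g h x := (permFun2_cocFun2_mul hι' rep hex huniq g h x).1
  coc_mul g h x := (permFun2_cocFun2_mul hι' rep hex huniq g h x).2

@[simp] theorem ofExists_rep : (ofExists hι' rep hex huniq).rep = rep := rfl

/-- the characterisation of `perm` and `coc` of `ofExists` -/
theorem ofExists_spec {g : Γ} {g' : Γ'} {x x' : X} (h : rep x * ι g = ι' g' * rep x') :
    (ofExists hι' rep hex huniq).perm g x = x' ∧
      (ofExists hι' rep hex huniq).coc g x = g' :=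
  permFun2_cocFun2_unique hι' rep hex huniq h

end OfExists

/-- for any coset data with injective `ι'` and separated representatives, `perm` and `coc` are
determined by the relation -/
theorem eq_of_rel {ι' : Γ' →* G} {ι : Γ →* G} {X : Type*} (D : CosetData2 ι' ι X)
    (hι' : Function.Injective ι')
    (huniq : ∀ (x x' : X) (g : Γ'), D.rep x = ι' g * D.rep x' → x = x')
    {g : Γ} {g' : Γ'} {x x' : X} (h : D.rep x * ι g = ι' g' * D.rep x') :
    D.perm g x = x' ∧ D.coc g x = g' := by
  have h1 := D.rel g x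
  rw [h] at h1
  have h2 : D.rep (D.perm g x) = ι' ((D.coc g x)⁻¹ * g') * D.rep x' := by
    rw [map_mul, map_inv, mul_assoc, h1, inv_mul_cancel_left]
  have h3 : D.perm g x = x' := huniq _ _ _ h2
  refine ⟨h3, ?_⟩
  rw [h3] at h1
  exact (hι' (mul_right_cancel h1)).symm

/-! ### composition -/

section Comp

variable {ι'' : Γ'' →* G} {ι' : Γ' →* G} {ι : Γ →* G} {X₁ X₂ : Type*}
  (D₁ : CosetData2 ι'' ι' X₁) (D₂ : CosetData2 ι' ι X₂)

/-- the composite datum: representatives `rep₁ x₁ * rep₂ x₂` -/
def comp : CosetData2 ι'' ι (X₁ × X₂) where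
  rep x := D₁.rep x.1 * D₂.rep x.2
  perm g :=
    { toFun := fun x => (D₁.perm (D₂.coc g x.2) x.1, D₂.perm g x.2)
      invFun := fun y => (D₁.perm (D₂.coc g⁻¹ y.2) y.1, D₂.perm g⁻¹ y.2)
      left_inv := fun x => by
        refine Prod.ext ?_ ?_
        · show D₁.perm (D₂.coc g⁻¹ (D₂.perm g x.2)) (D₁.perm (D₂.coc g x.2) x.1) = x.1
          rw [D₂.coc_inv, D₁.perm_inv]
        · exact D₂.perm_inv g x.2
      right_inv := fun y => by
        refine Prod.ext ?_ ?_
        · show D₁.perm (D₂.coc g (D₂.perm g⁻¹ y.2)) (D₁.perm (D₂.coc g⁻¹ y.2) y.1) = y.1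
          have h := D₂.coc_inv g⁻¹ y.2
          rw [inv_inv] at h
          rw [h, D₁.perm_inv]
        · exact D₂.perm_inv' g y.2 }
  coc g x := D₁.coc (D₂.coc g x.2) x.1
  rel g x := by
    show D₁.rep x.1 * D₂.rep x.2 * ι g =
      ι'' (D₁.coc (D₂.coc g x.2) x.1) * (D₁.rep (D₁.perm (D₂.coc g x.2) x.1) *
        D₂.rep (D₂.perm g x.2))
    rw [mul_assoc, D₂.rel, ← mul_assoc, D₁.rel, mul_assoc]
  perm_mul g h x := by
    refine Prod.ext ?_ ?_
    · show D₁.perm (D₂.coc (g * h) x.2) x.1 =
        D₁.perm (D₂.coc h (D₂.perm g x.2)) (D₁.perm (D₂.coc g x.2) x.1)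
      rw [D₂.coc_mul, D₁.perm_mul]
    · exact D₂.perm_mul g h x.2
  coc_mul g h x := by
    show D₁.coc (D₂.coc (g * h) x.2) x.1 =
      D₁.coc (D₂.coc g x.2) x.1 * D₁.coc (D₂.coc h (D₂.perm g x.2)) (D₁.perm (D₂.coc g x.2) x.1)
    rw [D₂.coc_mul, D₁.coc_mul]

@[simp] theorem comp_rep (x : X₁ × X₂) : (comp D₁ D₂).rep x = D₁.rep x.1 * D₂.rep x.2 := rfl

@[simp] theorem comp_coc (g : Γ) (x : X₁ × X₂) :
    (comp D₁ D₂).coc g x = D₁.coc (D₂.coc g x.2) x.1 := rfl

@[simp] theorem comp_perm (g : Γ) (x : X₁ × X₂) :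
    (comp D₁ D₂).perm g x = (D₁.perm (D₂.coc g x.2) x.1, D₂.perm g x.2) := rfl

/-- **the operator of the composite datum is the composite of the operators** -/
theorem heckeHom_comp [Fintype X₁] [Fintype X₂] {A : Type*} [AddCommGroup A]
    (φ : Additive Γ'' →+ A) :
    (comp D₁ D₂).heckeHom φ = D₂.heckeHom (D₁.heckeHom φ) := by
  refine AddMonoidHom.ext fun g' => ?_
  obtain ⟨g, rfl⟩ := Additive.ofMul.surjective g'
  rw [heckeHom_apply, heckeHom_apply, Fintype.sum_prod_type_right]
  refine Finset.sum_congr rfl fun x₂ _ => ?_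
  rw [heckeHom_apply]
  rfl

end Comp

/-! ### independence of the representatives -/

section Indep

variable {ι' : Γ' →* G} {ι : Γ →* G} {X X' : Type*}
  (D : CosetData2 ι' ι X) (D' : CosetData2 ι' ι X')

/-- the relation between `perm`, `coc` of two data whose representatives differ by elements of
`ι'(Γ')` on the left -/
theorem perm_coc_of_reps (hι' : Function.Injective ι')
    (huniq : ∀ (x x' : X') (g : Γ'), D'.rep x = ι' g * D'.rep x' → x = x')
    (e : X ≃ X') (t : X → Γ') (hrep : ∀ x, D'.rep (e x) = ι' (t x) * D.rep x) (g : Γ) (x : X) :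
    D'.perm g (e x) = e (D.perm g x) ∧
      D'.coc g (e x) = t x * D.coc g x * (t (D.perm g x))⁻¹ := by
  apply D'.eq_of_rel hι' huniq
  rw [hrep, hrep, mul_assoc, D.rel, map_mul, map_mul, map_inv]
  simp only [mul_assoc, inv_mul_cancel_left]

/-- **independence of the representatives** -/
theorem heckeHom_eq_of_reps [Fintype X] [Fintype X'] {A : Type*} [AddCommGroup A]
    (hι' : Function.Injective ι')
    (huniq : ∀ (x x' : X') (g : Γ'), D'.rep x = ι' g * D'.rep x' → x = x')
    (e : X ≃ X') (t : X → Γ') (hrep : ∀ x, D'.rep (e x) = ι' (t x) * D.rep x) :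
    (D'.heckeHom : (Additive Γ' →+ A) →+ (Additive Γ →+ A)) = D.heckeHom := by
  refine AddMonoidHom.ext fun φ => AddMonoidHom.ext fun g' => ?_
  obtain ⟨g, rfl⟩ := Additive.ofMul.surjective g'
  rw [heckeHom_apply, heckeHom_apply, ← Equiv.sum_comp e]
  have h1 : ∀ x, φ (Additive.ofMul (D'.coc g (e x))) =
      φ (Additive.ofMul (D.coc g x)) +
        (φ (Additive.ofMul (t x)) - φ (Additive.ofMul (t (D.perm g x)))) := by
    intro x
    rw [(perm_coc_of_reps D D' hι' huniq e t hrep g x).2, ofMul_mul, ofMul_mul, map_add, map_add,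
      ofMul_inv, map_neg]
    abel
  rw [Finset.sum_congr rfl fun x _ => h1 x, Finset.sum_add_distrib, Finset.sum_sub_distrib,
    Equiv.sum_comp (D.perm g) (fun y => φ (Additive.ofMul (t y))), sub_self, add_zero]

end Indep

/-! ### disjoint unions -/

section Sum

variable {ι' : Γ' →* G} {ι : Γ →* G} {X₁ X₂ : Type*}
  (D₁ : CosetData2 ι' ι X₁) (D₂ : CosetData2 ι' ι X₂)

/-- the union of two coset data -/
def sum : CosetData2 ι' ι (X₁ ⊕ X₂) where
  rep := Sum.elim D₁.rep D₂.rep
  perm g := Equiv.sumCongr (D₁.perm g) (D₂.perm g)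
  coc g := Sum.elim (D₁.coc g) (D₂.coc g)
  rel g x := by
    rcases x with x | x
    · exact D₁.rel g x
    · exact D₂.rel g x
  perm_mul g h x := by
    rcases x with x | x
    · exact congrArg Sum.inl (D₁.perm_mul g h x)
    · exact congrArg Sum.inr (D₂.perm_mul g h x)
  coc_mul g h x := by
    rcases x with x | x
    · exact D₁.coc_mul g h x
    · exact D₂.coc_mul g h x

theorem heckeHom_sum [Fintype X₁] [Fintype X₂] {A : Type*} [AddCommGroup A]
    (φ : Additive Γ' →+ A) :
    (sum D₁ D₂).heckeHom φ = D₁.heckeHom φ + D₂.heckeHom φ := by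
  refine AddMonoidHom.ext fun g' => ?_
  obtain ⟨g, rfl⟩ := Additive.ofMul.surjective g'
  rw [AddMonoidHom.add_apply, heckeHom_apply, heckeHom_apply, heckeHom_apply,
    Fintype.sum_sum_type]
  rfl

end Sum

/-! ### conjugation and restriction -/

section Conj

variable {ι' : Γ' →* G} {ι : Γ →* G}

/-- the one-point datum of a homomorphism `f : Γ →* Γ'` induced by conjugation with `w` -/
def conjData (w : G) (f : Γ →* Γ') (hf : ∀ g, w * ι g = ι' (f g) * w) :
    CosetData2 ι' ι Unit where
  rep _ := w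
  perm _ := Equiv.refl Unit
  coc g _ := f g
  rel g _ := hf g
  perm_mul _ _ _ := rfl
  coc_mul g h _ := map_mul f g h

theorem heckeHom_conjData {A : Type*} [AddCommGroup A] (w : G) (f : Γ →* Γ')
    (hf : ∀ g, w * ι g = ι' (f g) * w) (φ : Additive Γ' →+ A) :
    (conjData w f hf).heckeHom φ = φ.comp (MonoidHom.toAdditive f) := by
  refine AddMonoidHom.ext fun g' => ?_
  obtain ⟨g, rfl⟩ := Additive.ofMul.surjective g'
  rw [heckeHom_apply, Fintype.sum_unique]
  rfl

/-- restriction along `f : Γ →* Γ'` over `G` -/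
def resData (f : Γ →* Γ') (hf : ∀ g, ι g = ι' (f g)) : CosetData2 ι' ι Unit :=
  conjData 1 f fun g => by rw [one_mul, mul_one, hf]

theorem heckeHom_resData {A : Type*} [AddCommGroup A] (f : Γ →* Γ')
    (hf : ∀ g, ι g = ι' (f g)) (φ : Additive Γ' →+ A) :
    (resData f hf).heckeHom φ = φ.comp (MonoidHom.toAdditive f) :=
  heckeHom_conjData _ _ _ φ

end Conj

/-! ### corestriction after restriction -/

section Section

variable {ι' : Γ' →* G} {ι : Γ →* G} {X : Type*} (D : CosetData2 ι' ι X)

/-- **corestriction after restriction is multiplication by the index**: if `Γ'` maps to `Γ` over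
`G` (by `j`) and the representatives come from `Γ` (`rep x = ι (s x)`), then on a homomorphism `ψ`
defined on all of `Γ` the operator is multiplication by the number of cosets. -/
theorem heckeHom_comp_of_section [Fintype X] {A : Type*} [AddCommGroup A]
    (hι : Function.Injective ι) (j : Γ' →* Γ) (hj : ∀ g, ι' g = ι (j g)) (s : X → Γ)
    (hs : ∀ x, D.rep x = ι (s x)) (ψ : Additive Γ →+ A) :
    D.heckeHom (ψ.comp (MonoidHom.toAdditive j)) = Fintype.card X • ψ := by
  refine AddMonoidHom.ext fun g' => ?_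
  obtain ⟨g, rfl⟩ := Additive.ofMul.surjective g'
  rw [heckeHom_apply, AddMonoidHom.smul_apply]
  have h1 : ∀ x, s x * g = j (D.coc g x) * s (D.perm g x) := by
    intro x
    apply hι
    rw [map_mul, map_mul, ← hs, ← hs, ← hj]
    exact D.rel g x
  have h2 : ∀ x, (ψ.comp (MonoidHom.toAdditive j)) (Additive.ofMul (D.coc g x)) =
      ψ (Additive.ofMul g) + (ψ (Additive.ofMul (s x)) -
        ψ (Additive.ofMul (s (D.perm g x)))) := by
    intro x
    have h3 : j (D.coc g x) = s x * g * (s (D.perm g x))⁻¹ := by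
      rw [h1 x, mul_inv_cancel_right]
    show ψ (Additive.ofMul (j (D.coc g x))) = _
    rw [h3, ofMul_mul, ofMul_mul, map_add, map_add, ofMul_inv, map_neg]
    abel
  rw [Finset.sum_congr rfl fun x _ => h2 x, Finset.sum_add_distrib, Finset.sum_sub_distrib,
    Equiv.sum_comp (D.perm g) (fun y => ψ (Additive.ofMul (s y))), sub_self, add_zero,
    Finset.sum_const, Finset.card_univ]

/-- the same with representatives `z * ι (s x)`, `z` commuting with `ι(Γ)` -/
theorem heckeHom_comp_of_section_central [Fintype X] {A : Type*} [AddCommGroup A]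
    (hι : Function.Injective ι) (j : Γ' →* Γ) (hj : ∀ g, ι' g = ι (j g)) (z : G)
    (hz : ∀ g : Γ, Commute z (ι g)) (s : X → Γ)
    (hs : ∀ x, D.rep x = z * ι (s x)) (ψ : Additive Γ →+ A) :
    D.heckeHom (ψ.comp (MonoidHom.toAdditive j)) = Fintype.card X • ψ := by
  refine AddMonoidHom.ext fun g' => ?_
  obtain ⟨g, rfl⟩ := Additive.ofMul.surjective g'
  rw [heckeHom_apply, AddMonoidHom.smul_apply]
  have h1 : ∀ x, s x * g = j (D.coc g x) * s (D.perm g x) := by
    intro x
    apply hι
    apply mul_left_cancel (a := z)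
    rw [map_mul, map_mul, ← mul_assoc, ← hs, ← mul_assoc, (hz _).eq, mul_assoc, ← hs, ← hj]
    exact D.rel g x
  have h2 : ∀ x, (ψ.comp (MonoidHom.toAdditive j)) (Additive.ofMul (D.coc g x)) =
      ψ (Additive.ofMul g) + (ψ (Additive.ofMul (s x)) -
        ψ (Additive.ofMul (s (D.perm g x)))) := by
    intro x
    have h3 : j (D.coc g x) = s x * g * (s (D.perm g x))⁻¹ := by
      rw [h1 x, mul_inv_cancel_right]
    show ψ (Additive.ofMul (j (D.coc g x))) = _
    rw [h3, ofMul_mul, ofMul_mul, map_add, map_add, ofMul_inv, map_neg]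
    abel
  rw [Finset.sum_congr rfl fun x _ => h2 x, Finset.sum_add_distrib, Finset.sum_sub_distrib,
    Equiv.sum_comp (D.perm g) (fun y => ψ (Additive.ofMul (s y))), sub_self, add_zero,
    Finset.sum_const, Finset.card_univ]

end Section

end CosetData2

end Fermat.Agent.S41.Deg.TwoGroup
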