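import Mathlib
import Fermat.Agent.S30.Hecke.Gamma0Cosets

/-!
# PROJECT R (S41), slice R-M2b (part 1): level `N q` inside level `N`, integral bookkeeping

`q` a prime not dividing `N`, `δ = diag(q, 1) = heckeDiagMatrix q`, `δ* = diag(1, q) = heckeMatrix q 0`.

* `IsIntMat u M` : the element `u : GL₂(ℝ)` has the integral matrix `M`; closure under products, and
  `IsIntMat.eq_iff` (equalities in `GL₂(ℝ)` are equalities of integral matrices);
* `inclQ : Γ₀(N q) →* Γ₀(N)` (the inclusion), `conjQ : Γ₀(N q) →* Γ₀(N)` (`c ↦ δ c δ⁻¹`), with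
  `iota_inclQ`, `diag_mul_iota` (`δ * iota (N q) c = iota N (conjQ c) * δ`);
* `mem_Gamma0_mul_of_diag_conj`, `mem_Gamma0_mul_of_star_conj` : the two integrality criteria for
  membership in `Γ₀(N q)`;
* explicit representatives `sRep x`, `tRep x`, `sStar x`, `tStar x ∈ Γ₀(N)` (`x : Option (Fin q)`) with
  `repT q x = iota N (tRep x) * (δ * iota N (sRep x))` and
  `repT q x = iota N (tStar x) * (δ* * iota N (sStar x))`.
-/

set_option autoImplicit false
set_option linter.unusedSectionVars false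
set_option linter.style.haveILetI false

open CongruenceSubgroup Matrix.SpecialLinearGroup ModularForm
open scoped MatrixGroups

noncomputable section

namespace Fermat.Agent.S41.Deg.Reps

open Fermat.Agent.S30.Hecke.DoubleCoset Fermat.Agent.S30.Hecke.Gamma0Cosets

/-! ### integral matrices in `GL₂(ℝ)` -/

/-- `u : GL₂(ℝ)` has the integral matrix `M` -/
def IsIntMat (u : GL (Fin 2) ℝ) (M : Matrix (Fin 2) (Fin 2) ℤ) : Prop :=
  (u : Matrix (Fin 2) (Fin 2) ℝ) = M.map (Int.castRingHom ℝ)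

theorem IsIntMat.mul {u v : GL (Fin 2) ℝ} {M M' : Matrix (Fin 2) (Fin 2) ℤ} (hu : IsIntMat u M)
    (hv : IsIntMat v M') : IsIntMat (u * v) (M * M') := by
  unfold IsIntMat at *
  rw [Units.val_mul, hu, hv, Matrix.map_mul]

theorem IsIntMat.one : IsIntMat 1 1 := by
  unfold IsIntMat
  rw [Units.val_one, Matrix.map_one] <;> simp

theorem IsIntMat.eq_iff {u v : GL (Fin 2) ℝ} {M M' : Matrix (Fin 2) (Fin 2) ℤ} (hu : IsIntMat u M)
    (hv : IsIntMat v M') : u = v ↔ M = M' := by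
  unfold IsIntMat at *
  constructor
  · intro h
    rw [h, hv] at hu
    exact (Matrix.map_injective (Int.cast_injective (α := ℝ)) hu).symm
  · intro h
    apply Units.ext
    rw [hu, hv, h]

theorem isIntMat_iota (N : ℕ) (g : Gamma0 N) :
    IsIntMat (iota N g) ((g : SL(2, ℤ)) : Matrix (Fin 2) (Fin 2) ℤ) := coe_iota' N g

theorem isIntMat_repT {p : ℕ} (hp : p ≠ 0) (x : Option (Fin p)) : IsIntMat (repT p x) (repZ p x) :=
  coe_repT hp x

/-- `δ = diag(q, 1)` -/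
def dZ (q : ℕ) : Matrix (Fin 2) (Fin 2) ℤ := !![(q : ℤ), 0; 0, 1]

/-- `δ* = diag(1, q)` -/
def dsZ (q : ℕ) : Matrix (Fin 2) (Fin 2) ℤ := !![1, 0; 0, (q : ℤ)]

theorem isIntMat_diag {q : ℕ} (hq : q ≠ 0) : IsIntMat (heckeDiagMatrix q) (dZ q) :=
  isIntMat_repT hq none

theorem isIntMat_star {q : ℕ} (hq : q ≠ 0) : IsIntMat (heckeMatrix q 0) (dsZ q) := by
  unfold IsIntMat
  rw [val_heckeMatrix hq]
  ext i k
  fin_cases i <;> fin_cases k <;> simp [dsZ]

/-! ### the inclusion and the conjugation `Γ₀(N q) → Γ₀(N)` -/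

variable {N q : ℕ}

theorem Gamma0_mul_le' (N q : ℕ) : Gamma0 (N * q) ≤ Gamma0 N := by
  intro g hg
  rw [Gamma0_mem, ZMod.intCast_zmod_eq_zero_iff_dvd] at hg ⊢
  exact dvd_trans (by push_cast; exact dvd_mul_right _ _) hg

/-- the inclusion `Γ₀(N q) → Γ₀(N)` -/
def inclQ (N q : ℕ) : Gamma0 (N * q) →* Gamma0 N := Subgroup.inclusion (Gamma0_mul_le' N q)

theorem coe_inclQ (c : Gamma0 (N * q)) : ((inclQ N q c : Gamma0 N) : SL(2, ℤ)) = c := rfl

theorem iota_inclQ (c : Gamma0 (N * q)) : iota (N * q) c = iota N (inclQ N q c) := rfl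

theorem dvd_entry_mul (c : Gamma0 (N * q)) : (q : ℤ) ∣ (c : SL(2, ℤ)) 1 0 :=
  dvd_trans (by push_cast; exact dvd_mul_left _ _) (dvd_entry (N * q) c)

/-- the function `c ↦ δ c δ⁻¹` -/
def conjFun (hq : q.Prime) (_hqN : ¬ q ∣ N) (c : Gamma0 (N * q)) : Gamma0 N :=
  mkGamma0 N ((c : SL(2, ℤ)) 0 0) ((q : ℤ) * (c : SL(2, ℤ)) 0 1) ((c : SL(2, ℤ)) 1 0 / (q : ℤ))
    ((c : SL(2, ℤ)) 1 1)
    (by
      have h := det_entries (N * q) c
      have h2 := Int.ediv_mul_cancel (dvd_entry_mul c)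
      linear_combination h - ((c : SL(2, ℤ)) 0 1) * h2)
    (by
      have h1 := dvd_entry (N * q) c
      have h2 := Int.ediv_mul_cancel (dvd_entry_mul (N := N) c)
      rw [← h2] at h1
      push_cast at h1
      have hq0 : (q : ℤ) ≠ 0 := by exact_mod_cast hq.ne_zero
      exact (mul_dvd_mul_iff_right hq0).mp h1)

theorem dZ_mul_eq (hq : q.Prime) (hqN : ¬ q ∣ N) (c : Gamma0 (N * q)) :
    dZ q * ((c : SL(2, ℤ)) : Matrix (Fin 2) (Fin 2) ℤ) =
      (((conjFun hq hqN c : Gamma0 N) : SL(2, ℤ)) : Matrix (Fin 2) (Fin 2) ℤ) * dZ q := by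
  have h2 := Int.ediv_mul_cancel (dvd_entry_mul (N := N) c)
  rw [conjFun, coe_mkGamma0]
  conv_lhs => rw [coe_eq_of (N * q) c]
  simp only [dZ, Matrix.mul_fin_two]
  exact of_eq (by ring) (by ring) (by linear_combination -h2) (by ring)

/-- `δ * iota (N q) c = iota N (δ c δ⁻¹) * δ` -/
theorem diag_mul_iota_fun (hq : q.Prime) (hqN : ¬ q ∣ N) (c : Gamma0 (N * q)) :
    heckeDiagMatrix q * iota (N * q) c = iota N (conjFun hq hqN c) * heckeDiagMatrix q :=
  (((isIntMat_diag hq.ne_zero).mul (isIntMat_iota _ c)).eq_iff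
    ((isIntMat_iota _ _).mul (isIntMat_diag hq.ne_zero))).mpr (dZ_mul_eq hq hqN c)

/-- **the conjugation `c ↦ δ c δ⁻¹`, `Γ₀(N q) →* Γ₀(N)`** -/
def conjQ (hq : q.Prime) (hqN : ¬ q ∣ N) : Gamma0 (N * q) →* Gamma0 N :=
  MonoidHom.mk' (conjFun hq hqN) (by
    intro c₁ c₂
    apply iota_injective N
    apply mul_right_cancel (b := heckeDiagMatrix q)
    rw [← diag_mul_iota_fun, map_mul, map_mul, ← mul_assoc, diag_mul_iota_fun hq hqN c₁, mul_assoc,
      diag_mul_iota_fun hq hqN c₂, mul_assoc])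

theorem diag_mul_iota (hq : q.Prime) (hqN : ¬ q ∣ N) (c : Gamma0 (N * q)) :
    heckeDiagMatrix q * iota (N * q) c = iota N (conjQ hq hqN c) * heckeDiagMatrix q :=
  diag_mul_iota_fun hq hqN c

theorem coe_conjQ (hq : q.Prime) (hqN : ¬ q ∣ N) (c : Gamma0 (N * q)) :
    (((conjQ hq hqN c : Gamma0 N) : SL(2, ℤ)) : Matrix (Fin 2) (Fin 2) ℤ) =
      !![(c : SL(2, ℤ)) 0 0, (q : ℤ) * (c : SL(2, ℤ)) 0 1;
        (c : SL(2, ℤ)) 1 0 / (q : ℤ), (c : SL(2, ℤ)) 1 1] := rfl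

theorem trace_conjQ (hq : q.Prime) (hqN : ¬ q ∣ N) (c : Gamma0 (N * q)) :
    (((conjQ hq hqN c : Gamma0 N) : SL(2, ℤ)) : Matrix (Fin 2) (Fin 2) ℤ).trace =
      ((c : SL(2, ℤ)) : Matrix (Fin 2) (Fin 2) ℤ).trace := by
  rw [coe_conjQ, Matrix.trace_fin_two, Matrix.trace_fin_two]
  rfl

/-! ### membership in `Γ₀(N q)` -/

theorem mem_Gamma0_mul_of_dvd (hq : q.Prime) (hqN : ¬ q ∣ N) (h : Gamma0 N)
    (hd : (q : ℤ) ∣ (h : SL(2, ℤ)) 1 0) : (h : SL(2, ℤ)) ∈ Gamma0 (N * q) := by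
  rw [Gamma0_mem, ZMod.intCast_zmod_eq_zero_iff_dvd]
  push_cast
  have hcop : IsCoprime (N : ℤ) (q : ℤ) := by
    rw [Int.isCoprime_iff_gcd_eq_one, Int.gcd_natCast_natCast]
    exact (Nat.Coprime.symm ((Nat.Prime.coprime_iff_not_dvd hq).mpr hqN))
  exact hcop.mul_dvd (dvd_entry N h) hd

/-- if `δ h = k δ` with `h, k ∈ Γ₀(N)` then `h ∈ Γ₀(N q)` -/
theorem mem_Gamma0_mul_of_diag_conj (hq : q.Prime) (hqN : ¬ q ∣ N) (h k : Gamma0 N)
    (hk : heckeDiagMatrix q * iota N h = iota N k * heckeDiagMatrix q) :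
    (h : SL(2, ℤ)) ∈ Gamma0 (N * q) := by
  refine mem_Gamma0_mul_of_dvd hq hqN h ?_
  have h1 := (((isIntMat_diag hq.ne_zero).mul (isIntMat_iota _ h)).eq_iff
    ((isIntMat_iota _ k).mul (isIntMat_diag hq.ne_zero))).mp hk
  rw [coe_eq_of N h, coe_eq_of N k] at h1
  simp only [dZ, Matrix.mul_fin_two] at h1
  have h10 := congrFun (congrFun h1 1) 0
  simp at h10
  exact ⟨(k : SL(2, ℤ)) 1 0, by rw [h10]; ring⟩

/-- if `δ* h = c δ*` with `h, c ∈ Γ₀(N)` then `c ∈ Γ₀(N q)` -/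
theorem mem_Gamma0_mul_of_star_conj (hq : q.Prime) (hqN : ¬ q ∣ N) (h c : Gamma0 N)
    (hc : heckeMatrix q 0 * iota N h = iota N c * heckeMatrix q 0) :
    (c : SL(2, ℤ)) ∈ Gamma0 (N * q) := by
  refine mem_Gamma0_mul_of_dvd hq hqN c ?_
  have h1 := (((isIntMat_star hq.ne_zero).mul (isIntMat_iota _ h)).eq_iff
    ((isIntMat_iota _ c).mul (isIntMat_star hq.ne_zero))).mp hc
  rw [coe_eq_of N h, coe_eq_of N c] at h1
  simp only [dsZ, Matrix.mul_fin_two] at h1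
  have h10 := congrFun (congrFun h1 1) 0
  simp at h10
  exact ⟨(h : SL(2, ℤ)) 1 0, by rw [← h10]⟩

/-! ### explicit representatives -/

/-- Bézout: `q a' - N u = 1` -/
def bezA (N q : ℕ) : ℤ := Int.gcdA q N

/-- Bézout: `q a' - N u = 1` -/
def bezU (N q : ℕ) : ℤ := -Int.gcdB q N

theorem bez_eq (hq : q.Prime) (hqN : ¬ q ∣ N) : (q : ℤ) * bezA N q - (N : ℤ) * bezU N q = 1 := by
  have h := Int.gcd_eq_gcd_ab (q : ℤ) (N : ℤ)
  rw [Int.gcd_natCast_natCast, (Nat.Prime.coprime_iff_not_dvd hq).mpr hqN] at h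
  unfold bezA bezU
  push_cast at h
  linear_combination -h

/-- representatives of `Γ₀(N q) \ Γ₀(N)` -/
def sRep (hq : q.Prime) (hqN : ¬ q ∣ N) : Option (Fin q) → Gamma0 N
  | none => 1
  | some j => mkGamma0 N (bezA N q) (bezA N q * ((j : ℕ) : ℤ) + bezU N q) (N : ℤ)
      ((N : ℤ) * ((j : ℕ) : ℤ) + (q : ℤ))
      (by linear_combination bez_eq hq hqN) (dvd_refl _)

/-- the correcting elements: `repT q x = tRep x * δ * sRep x` -/
def tRep (hq : q.Prime) (hqN : ¬ q ∣ N) : Option (Fin q) → Gamma0 N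
  | none => 1
  | some _ => mkGamma0 N 1 (-bezU N q) (-(N : ℤ)) ((q : ℤ) * bezA N q)
      (by linear_combination bez_eq hq hqN) (dvd_neg.mpr (dvd_refl _))

theorem repZ_eq_tRep (hq : q.Prime) (hqN : ¬ q ∣ N) (x : Option (Fin q)) :
    repZ q x = (((tRep hq hqN x : Gamma0 N) : SL(2, ℤ)) : Matrix (Fin 2) (Fin 2) ℤ) *
      (dZ q * (((sRep hq hqN x : Gamma0 N) : SL(2, ℤ)) : Matrix (Fin 2) (Fin 2) ℤ)) := by
  have hb := bez_eq hq hqN
  rcases x with _ | j
  · simp only [tRep, sRep, repZ, dZ]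
    rw [OneMemClass.coe_one, Matrix.SpecialLinearGroup.coe_one, one_mul, mul_one]
  · simp only [tRep, sRep, repZ, dZ]
    rw [coe_mkGamma0, coe_mkGamma0]
    simp only [Matrix.mul_fin_two]
    exact of_eq (by linear_combination -hb)
      (by linear_combination (-((j : ℕ) : ℤ)) * hb) (by ring)
      (by linear_combination (-(q : ℤ)) * hb)

theorem repT_eq_tRep (hq : q.Prime) (hqN : ¬ q ∣ N) (x : Option (Fin q)) :
    repT q x = iota N (tRep hq hqN x) * (heckeDiagMatrix q * iota N (sRep hq hqN x)) :=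
  ((isIntMat_repT hq.ne_zero x).eq_iff ((isIntMat_iota _ _).mul
    ((isIntMat_diag hq.ne_zero).mul (isIntMat_iota _ _)))).mpr (repZ_eq_tRep hq hqN x)

/-- representatives of `(Γ₀(N) ∩ Γ⁰(q)) \ Γ₀(N)` -/
def sStar (hq : q.Prime) (hqN : ¬ q ∣ N) : Option (Fin q) → Gamma0 N
  | none => mkGamma0 N ((q : ℤ) * bezA N q) (bezU N q) (N : ℤ) 1
      (by linear_combination bez_eq hq hqN) (dvd_refl _)
  | some j => mkGamma0 N 1 ((j : ℕ) : ℤ) 0 1 (by ring) (dvd_zero _)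

/-- the correcting elements: `repT q x = tStar x * δ* * sStar x` -/
def tStar (hq : q.Prime) (hqN : ¬ q ∣ N) : Option (Fin q) → Gamma0 N
  | none => mkGamma0 N (q : ℤ) (-bezU N q) (-(N : ℤ)) (bezA N q)
      (by linear_combination bez_eq hq hqN) (dvd_neg.mpr (dvd_refl _))
  | some _ => 1

theorem repZ_eq_tStar (hq : q.Prime) (hqN : ¬ q ∣ N) (x : Option (Fin q)) :
    repZ q x = (((tStar hq hqN x : Gamma0 N) : SL(2, ℤ)) : Matrix (Fin 2) (Fin 2) ℤ) *
      (dsZ q * (((sStar hq hqN x : Gamma0 N) : SL(2, ℤ)) : Matrix (Fin 2) (Fin 2) ℤ)) := by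
  have hb := bez_eq hq hqN
  rcases x with _ | j
  · simp only [tStar, sStar, repZ, dsZ]
    rw [coe_mkGamma0, coe_mkGamma0]
    simp only [Matrix.mul_fin_two]
    exact of_eq (by linear_combination (-(q : ℤ)) * hb) (by ring) (by ring)
      (by linear_combination -hb)
  · simp only [tStar, sStar, repZ, dsZ]
    rw [coe_mkGamma0, OneMemClass.coe_one, Matrix.SpecialLinearGroup.coe_one, one_mul]
    simp only [Matrix.mul_fin_two]
    exact of_eq (by ring) (by ring) (by ring) (by ring)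

theorem repT_eq_tStar (hq : q.Prime) (hqN : ¬ q ∣ N) (x : Option (Fin q)) :
    repT q x = iota N (tStar hq hqN x) * (heckeMatrix q 0 * iota N (sStar hq hqN x)) :=
  ((isIntMat_repT hq.ne_zero x).eq_iff ((isIntMat_iota _ _).mul
    ((isIntMat_star hq.ne_zero).mul (isIntMat_iota _ _)))).mpr (repZ_eq_tStar hq hqN x)

/-- `δ δ* = q` is central -/
theorem diag_mul_star_comm (hq : q ≠ 0) (u : GL (Fin 2) ℝ) :
    Commute (heckeDiagMatrix q * heckeMatrix q 0) u := by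
  have hval : ((heckeDiagMatrix q * heckeMatrix q 0 : GL (Fin 2) ℝ) :
      Matrix (Fin 2) (Fin 2) ℝ) = (q : ℝ) • (1 : Matrix (Fin 2) (Fin 2) ℝ) := by
    rw [Units.val_mul, val_heckeDiagMatrix hq, val_heckeMatrix hq]
    ext i k
    fin_cases i <;> fin_cases k <;> simp
  apply Units.ext
  rw [Units.val_mul (heckeDiagMatrix q * heckeMatrix q 0) u,
    Units.val_mul u (heckeDiagMatrix q * heckeMatrix q 0), hval, smul_mul_assoc, one_mul,
    mul_smul_comm, mul_one]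

end Fermat.Agent.S41.Deg.Reps
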