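import Mathlib
import Fermat.Agent.S30.Hecke.Parabolic
import Fermat.Agent.S41.Deg.CosetData2
import Fermat.Agent.S41.Deg.Reps

/-!
# PROJECT R (S41), slice R-M2b (part 2): the degeneracy maps between the levels `N` and `N q`

`q` a prime not dividing `N`.  On `Hom(Γ₀(-), A)` (and on `parabolicHoms`):

* `alpha1` (restriction), `alpha2` (restriction after conjugation by `δ = diag(q, 1)`) :
  level `N` → level `N q`;
* `beta1` (corestriction), `beta2` (corestriction after conjugation) : level `N q` → level `N`;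
* **`beta1_alpha1`, `beta2_alpha2`** `= (q + 1) •`, **`beta1_alpha2`, `beta2_alpha1`** `= τ_q`
  (`tauT hq hqN` of `S30/Hecke/Gamma0Cosets`);
* the bundled linear maps `alphaPar1`, `alphaPar2`, `betaPar1`, `betaPar2` between
  `parabolicHoms R (Gamma0 N) A` and `parabolicHoms R (Gamma0 (N * q)) A`, and the four identities
  `betaPar1_alphaPar1` … in the shape of the seam of `S41/CongModule`.
-/

set_option autoImplicit false
set_option linter.unusedSectionVars false
set_option linter.style.haveILetI false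

open CongruenceSubgroup Matrix.SpecialLinearGroup ModularForm ModularCurve.Period
open scoped MatrixGroups

noncomputable section

namespace Fermat.Agent.S41.Deg.Maps

open Fermat.Agent.S30.Hecke.DoubleCoset Fermat.Agent.S30.Hecke.Gamma0Cosets
  Fermat.Agent.S30.Hecke.Parabolic Fermat.Agent.S41.Deg.TwoGroup Fermat.Agent.S41.Deg.Reps

/-! ### a group-theoretic rearrangement -/

theorem rearr {G : Type*} [Group G] {a d b g c a' b' : G}
    (h : a * (d * b) * g = c * (a' * (d * b'))) :
    d * b * g = a⁻¹ * c * a' * (d * b') ∧ d * (b * g * b'⁻¹) = a⁻¹ * c * a' * d := by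
  have h1 : d * b * g = a⁻¹ * c * a' * (d * b') := by
    calc d * b * g = a⁻¹ * (a * (d * b) * g) := by group
      _ = a⁻¹ * (c * (a' * (d * b'))) := by rw [h]
      _ = _ := by group
  refine ⟨h1, ?_⟩
  calc d * (b * g * b'⁻¹) = (d * b * g) * b'⁻¹ := by group
    _ = (a⁻¹ * c * a' * (d * b')) * b'⁻¹ := by rw [h1]
    _ = _ := by group

variable {N q : ℕ} (hq : q.Prime) (hqN : ¬ q ∣ N)

/-! ### the four coset data -/

/-- restriction `Γ₀(N q) ⊆ Γ₀(N)` -/
def resD (N q : ℕ) : CosetData2 (iota N) (iota (N * q)) Unit :=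
  CosetData2.resData (inclQ N q) iota_inclQ

/-- restriction after conjugation by `δ` -/
def conjD : CosetData2 (iota N) (iota (N * q)) Unit :=
  CosetData2.conjData (heckeDiagMatrix q) (conjQ hq hqN) (diag_mul_iota hq hqN)

/-- the relation of `T_q` rewritten with the representatives `tRep x * δ * sRep x` -/
theorem rel_tRep (g : Gamma0 N) (x : Option (Fin q)) :
    iota N (tRep hq hqN x) * (heckeDiagMatrix q * iota N (sRep hq hqN x)) * iota N g =
      iota N ((cosetT hq hqN).coc g x) *
        (iota N (tRep hq hqN ((cosetT hq hqN).perm g x)) *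
          (heckeDiagMatrix q * iota N (sRep hq hqN ((cosetT hq hqN).perm g x)))) := by
  rw [← repT_eq_tRep, ← repT_eq_tRep]
  exact (cosetT hq hqN).rel g x

theorem rel_tStar (g : Gamma0 N) (x : Option (Fin q)) :
    iota N (tStar hq hqN x) * (heckeMatrix q 0 * iota N (sStar hq hqN x)) * iota N g =
      iota N ((cosetT hq hqN).coc g x) *
        (iota N (tStar hq hqN ((cosetT hq hqN).perm g x)) *
          (heckeMatrix q 0 * iota N (sStar hq hqN ((cosetT hq hqN).perm g x)))) := by
  rw [← repT_eq_tStar, ← repT_eq_tStar]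
  exact (cosetT hq hqN).rel g x

/-- the cocycle of the corestriction, in `Γ₀(N)` -/
def cocRes (g : Gamma0 N) (x : Option (Fin q)) : Gamma0 N :=
  sRep hq hqN x * g * (sRep hq hqN ((cosetT hq hqN).perm g x))⁻¹

theorem cocRes_mem (g : Gamma0 N) (x : Option (Fin q)) :
    ((cocRes hq hqN g x : Gamma0 N) : SL(2, ℤ)) ∈ Gamma0 (N * q) := by
  refine mem_Gamma0_mul_of_diag_conj hq hqN _
    ((tRep hq hqN x)⁻¹ * (cosetT hq hqN).coc g x * tRep hq hqN ((cosetT hq hqN).perm g x)) ?_
  have h := (rearr (rel_tRep hq hqN g x)).2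
  rw [cocRes, map_mul, map_mul, map_mul, map_mul, map_inv, map_inv]
  exact h

/-- the cocycle of the conjugated corestriction, in `Γ₀(N)` -/
def cocStar (g : Gamma0 N) (x : Option (Fin q)) : Gamma0 N :=
  (tStar hq hqN x)⁻¹ * (cosetT hq hqN).coc g x * tStar hq hqN ((cosetT hq hqN).perm g x)

theorem cocStar_mem (g : Gamma0 N) (x : Option (Fin q)) :
    ((cocStar hq hqN g x : Gamma0 N) : SL(2, ℤ)) ∈ Gamma0 (N * q) := by
  refine mem_Gamma0_mul_of_star_conj hq hqN
    (sStar hq hqN x * g * (sStar hq hqN ((cosetT hq hqN).perm g x))⁻¹) _ ?_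
  have h := (rearr (rel_tStar hq hqN g x)).2
  rw [cocStar, map_mul, map_mul, map_mul, map_mul, map_inv, map_inv]
  exact h

theorem iota_mk (h : Gamma0 N) (hm : (h : SL(2, ℤ)) ∈ Gamma0 (N * q)) :
    iota (N * q) ⟨(h : SL(2, ℤ)), hm⟩ = iota N h := rfl

/-- **corestriction** `Γ₀(N q) \ Γ₀(N)` -/
def coresD : CosetData2 (iota (N * q)) (iota N) (Option (Fin q)) where
  rep x := iota N (sRep hq hqN x)
  perm g := (cosetT hq hqN).perm g
  coc g x := ⟨_, cocRes_mem hq hqN g x⟩
  rel g x := by
    rw [iota_mk, cocRes, ← map_mul, ← map_mul, inv_mul_cancel_right]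
  perm_mul g h x := (cosetT hq hqN).perm_mul g h x
  coc_mul g h x := by
    apply Subtype.ext
    show ((cocRes hq hqN (g * h) x : Gamma0 N) : SL(2, ℤ)) =
      ((cocRes hq hqN g x : Gamma0 N) : SL(2, ℤ)) *
        ((cocRes hq hqN h ((cosetT hq hqN).perm g x) : Gamma0 N) : SL(2, ℤ))
    rw [← Subgroup.coe_mul]
    congr 1
    unfold cocRes
    rw [(cosetT hq hqN).perm_mul]
    group

/-- **corestriction after conjugation**: representatives `δ* * sStar x` -/
def coresStarD : CosetData2 (iota (N * q)) (iota N) (Option (Fin q)) where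
  rep x := heckeMatrix q 0 * iota N (sStar hq hqN x)
  perm g := (cosetT hq hqN).perm g
  coc g x := ⟨_, cocStar_mem hq hqN g x⟩
  rel g x := by
    rw [iota_mk, cocStar, map_mul, map_mul, map_inv]
    exact (rearr (rel_tStar hq hqN g x)).1
  perm_mul g h x := (cosetT hq hqN).perm_mul g h x
  coc_mul g h x := by
    apply Subtype.ext
    show ((cocStar hq hqN (g * h) x : Gamma0 N) : SL(2, ℤ)) =
      ((cocStar hq hqN g x : Gamma0 N) : SL(2, ℤ)) *
        ((cocStar hq hqN h ((cosetT hq hqN).perm g x) : Gamma0 N) : SL(2, ℤ))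
    rw [← Subgroup.coe_mul]
    congr 1
    unfold cocStar
    rw [(cosetT hq hqN).perm_mul, (cosetT hq hqN).coc_mul]
    group

/-! ### the operators on `Hom(Γ₀(-), A)` -/

section Ops

variable {A : Type*} [AddCommGroup A]

/-- restriction -/
def alpha1 (N q : ℕ) : (Additive (Gamma0 N) →+ A) →+ (Additive (Gamma0 (N * q)) →+ A) :=
  (resD N q).heckeHom

/-- restriction after conjugation by `δ` -/
def alpha2 : (Additive (Gamma0 N) →+ A) →+ (Additive (Gamma0 (N * q)) →+ A) :=
  (conjD hq hqN).heckeHom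

/-- corestriction -/
def beta1 : (Additive (Gamma0 (N * q)) →+ A) →+ (Additive (Gamma0 N) →+ A) :=
  (coresD hq hqN).heckeHom

/-- corestriction after conjugation -/
def beta2 : (Additive (Gamma0 (N * q)) →+ A) →+ (Additive (Gamma0 N) →+ A) :=
  (coresStarD hq hqN).heckeHom

theorem alpha1_apply (φ : Additive (Gamma0 N) →+ A) (c : Gamma0 (N * q)) :
    alpha1 N q φ (Additive.ofMul c) = φ (Additive.ofMul (inclQ N q c)) := by
  unfold alpha1 resD
  rw [CosetData2.heckeHom_resData]
  rfl

theorem alpha2_apply (φ : Additive (Gamma0 N) →+ A) (c : Gamma0 (N * q)) :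
    alpha2 hq hqN φ (Additive.ofMul c) = φ (Additive.ofMul (conjQ hq hqN c)) := by
  unfold alpha2 conjD
  rw [CosetData2.heckeHom_conjData]
  rfl

theorem alpha1_eq (φ : Additive (Gamma0 N) →+ A) :
    alpha1 N q φ = φ.comp (MonoidHom.toAdditive (inclQ N q)) :=
  CosetData2.heckeHom_resData _ _ φ

theorem alpha2_eq (φ : Additive (Gamma0 N) →+ A) :
    alpha2 hq hqN φ = φ.comp (MonoidHom.toAdditive (conjQ hq hqN)) :=
  CosetData2.heckeHom_conjData _ _ _ φ

theorem card_option_fin : Fintype.card (Option (Fin q)) = q + 1 := by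
  rw [Fintype.card_option, Fintype.card_fin]

/-- **`β₁ α₁ = q + 1`** -/
theorem beta1_alpha1 (φ : Additive (Gamma0 N) →+ A) :
    beta1 hq hqN (alpha1 N q φ) = (q + 1) • φ := by
  rw [alpha1_eq, beta1, ← card_option_fin (q := q)]
  exact CosetData2.heckeHom_comp_of_section (coresD hq hqN) (iota_injective N) (inclQ N q)
    iota_inclQ (sRep hq hqN) (fun _ => rfl) φ

/-- **`β₁ α₂ = τ_q`** -/
theorem beta1_alpha2 (φ : Additive (Gamma0 N) →+ A) :
    beta1 hq hqN (alpha2 hq hqN φ) = tauT hq hqN φ := by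
  unfold beta1 alpha2 tauT
  rw [← CosetData2.heckeHom_comp, ← CosetData2.heckeHom_ofCosetData]
  refine (congrArg (fun f => f φ) (CosetData2.heckeHom_eq_of_reps
    (CosetData2.comp (conjD hq hqN) (coresD hq hqN)) (CosetData2.ofCosetData (cosetT hq hqN))
    (iota_injective N) (cosetT_sep hq hqN) (Equiv.punitProd _) (fun x => tRep hq hqN x.2)
    (fun x => ?_))).symm
  exact repT_eq_tRep hq hqN x.2

/-- **`β₂ α₁ = τ_q`** -/
theorem beta2_alpha1 (φ : Additive (Gamma0 N) →+ A) :
    beta2 hq hqN (alpha1 N q φ) = tauT hq hqN φ := by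
  unfold beta2 alpha1 tauT
  rw [← CosetData2.heckeHom_comp, ← CosetData2.heckeHom_ofCosetData]
  refine (congrArg (fun f => f φ) (CosetData2.heckeHom_eq_of_reps
    (CosetData2.comp (resD N q) (coresStarD hq hqN)) (CosetData2.ofCosetData (cosetT hq hqN))
    (iota_injective N) (cosetT_sep hq hqN) (Equiv.punitProd _) (fun x => tStar hq hqN x.2)
    (fun x => ?_))).symm
  show repT q x.2 = iota N (tStar hq hqN x.2) * (1 * (heckeMatrix q 0 * iota N (sStar hq hqN x.2)))
  rw [one_mul]
  exact repT_eq_tStar hq hqN x.2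

/-- **`β₂ α₂ = q + 1`** -/
theorem beta2_alpha2 (φ : Additive (Gamma0 N) →+ A) :
    beta2 hq hqN (alpha2 hq hqN φ) = (q + 1) • φ := by
  unfold beta2 alpha2
  rw [← CosetData2.heckeHom_comp]
  have h := CosetData2.heckeHom_comp_of_section_central
    (CosetData2.comp (conjD hq hqN) (coresStarD hq hqN)) (iota_injective N) (MonoidHom.id _)
    (fun _ => rfl) (heckeDiagMatrix q * heckeMatrix q 0)
    (fun g => diag_mul_star_comm hq.ne_zero _) (fun x => sStar hq hqN x.2)
    (fun x => by
      show heckeDiagMatrix q * (heckeMatrix q 0 * iota N (sStar hq hqN x.2)) = _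
      rw [mul_assoc]) φ
  rw [Fintype.card_prod, Fintype.card_unit, one_mul, card_option_fin] at h
  rw [← h]
  rfl

end Ops

end Fermat.Agent.S41.Deg.Maps
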