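import Mathlib
import Fermat.Agent.S30.Hecke.Parabolic
import Fermat.Agent.S41.Deg.Maps

/-!
# PROJECT R (S41), slice R-M2b (part 3): the degeneracy maps on parabolic homomorphisms

* `heckeHom2_isParabolicHom` : ANY two-level coset datum over `iota M'`, `iota M` maps parabolic
  homomorphisms to parabolic homomorphisms;
* `alphaPar1`, `alphaPar2 : parabolicHoms R (Gamma0 N) A →ₗ[R] parabolicHoms R (Gamma0 (N * q)) A`,
  `betaPar1`, `betaPar2` back;
* **`betaPar1_alphaPar1`, `betaPar1_alphaPar2`, `betaPar2_alphaPar1`, `betaPar2_alphaPar2`** : the four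
  identities `β α = [[q + 1, τ_q], [τ_q, q + 1]]` in the shape of the seam of `S41/CongModule`
  (`τ_q = tauPar R A N q hq`).
-/

set_option autoImplicit false
set_option linter.unusedSectionVars false
set_option linter.style.haveILetI false

open CongruenceSubgroup Matrix.SpecialLinearGroup ModularForm ModularCurve.Period
open scoped MatrixGroups

noncomputable section

namespace Fermat.Agent.S41.Deg.Par

open Fermat.Agent.S30.Hecke.DoubleCoset Fermat.Agent.S30.Hecke.Gamma0Cosets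
  Fermat.Agent.S30.Hecke.Parabolic Fermat.Agent.S41.Deg.TwoGroup Fermat.Agent.S41.Deg.Reps
  Fermat.Agent.S41.Deg.Maps

/-! ### preservation of parabolic homomorphisms -/

theorem trace_eq_of_conj2 {M' M : ℕ} {g : Gamma0 M} {h : Gamma0 M'} {r : GL (Fin 2) ℝ}
    (hc : iota M' h = r * iota M g * r⁻¹) :
    ((h : SL(2, ℤ)) : Matrix (Fin 2) (Fin 2) ℤ).trace =
      ((g : SL(2, ℤ)) : Matrix (Fin 2) (Fin 2) ℤ).trace := by
  have h1 : ((iota M' h : GL (Fin 2) ℝ) : Matrix (Fin 2) (Fin 2) ℝ).trace =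
      ((iota M g : GL (Fin 2) ℝ) : Matrix (Fin 2) (Fin 2) ℝ).trace := by
    rw [hc, Units.val_mul, Units.val_mul, Matrix.trace_units_conj]
  rw [trace_iota, trace_iota] at h1
  exact_mod_cast h1

/-- **any two-level double-coset operator preserves parabolic homomorphisms** -/
theorem heckeHom2_isParabolicHom {M' M : ℕ} {X : Type*} [Fintype X] {A : Type*} [AddCommGroup A]
    (D : CosetData2 (iota M') (iota M) X) {φ : Additive (Gamma0 M') →+ A}
    (hφ : IsParabolicHom (Gamma0 M') φ) : IsParabolicHom (Gamma0 M) (D.heckeHom φ) := by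
  classical
  intro g hg
  refine D.heckeHom_apply_eq_zero φ g fun x m _ hfix => ?_
  refine hφ _ ?_
  rw [trace_eq_of_conj2 (D.map_coc_of_fixed hfix)]
  exact trace_pow_Gamma0 g hg m

/-! ### the bundled maps -/

section Bundled

variable {N q : ℕ} (hq : q.Prime) (hqN : ¬ q ∣ N)
variable (R : Type*) [Semiring R] (A : Type*) [AddCommGroup A] [Module R A]

/-- restriction, on parabolic homomorphisms -/
def alphaPar1 (N q : ℕ) :
    parabolicHoms R (Gamma0 N) A →ₗ[R] parabolicHoms R (Gamma0 (N * q)) A :=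
  ((resD N q).heckeLin R).restrict (p := parabolicHoms R (Gamma0 N) A)
    (q := parabolicHoms R (Gamma0 (N * q)) A) fun _ hφ => heckeHom2_isParabolicHom _ hφ

/-- restriction after conjugation by `δ`, on parabolic homomorphisms -/
def alphaPar2 : parabolicHoms R (Gamma0 N) A →ₗ[R] parabolicHoms R (Gamma0 (N * q)) A :=
  ((conjD hq hqN).heckeLin R).restrict (p := parabolicHoms R (Gamma0 N) A)
    (q := parabolicHoms R (Gamma0 (N * q)) A) fun _ hφ => heckeHom2_isParabolicHom _ hφ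

/-- corestriction, on parabolic homomorphisms -/
def betaPar1 : parabolicHoms R (Gamma0 (N * q)) A →ₗ[R] parabolicHoms R (Gamma0 N) A :=
  ((coresD hq hqN).heckeLin R).restrict (p := parabolicHoms R (Gamma0 (N * q)) A)
    (q := parabolicHoms R (Gamma0 N) A) fun _ hφ => heckeHom2_isParabolicHom _ hφ

/-- corestriction after conjugation, on parabolic homomorphisms -/
def betaPar2 : parabolicHoms R (Gamma0 (N * q)) A →ₗ[R] parabolicHoms R (Gamma0 N) A :=
  ((coresStarD hq hqN).heckeLin R).restrict (p := parabolicHoms R (Gamma0 (N * q)) A)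
    (q := parabolicHoms R (Gamma0 N) A) fun _ hφ => heckeHom2_isParabolicHom _ hφ

theorem coe_alphaPar1 (φ : parabolicHoms R (Gamma0 N) A) :
    ((alphaPar1 R A N q φ : parabolicHoms R (Gamma0 (N * q)) A) :
      Additive (Gamma0 (N * q)) →+ A) = alpha1 N q (φ : Additive (Gamma0 N) →+ A) := rfl

theorem coe_alphaPar2 (φ : parabolicHoms R (Gamma0 N) A) :
    ((alphaPar2 hq hqN R A φ : parabolicHoms R (Gamma0 (N * q)) A) :
      Additive (Gamma0 (N * q)) →+ A) = alpha2 hq hqN (φ : Additive (Gamma0 N) →+ A) := rfl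

theorem coe_betaPar1 (ψ : parabolicHoms R (Gamma0 (N * q)) A) :
    ((betaPar1 hq hqN R A ψ : parabolicHoms R (Gamma0 N) A) : Additive (Gamma0 N) →+ A) =
      beta1 hq hqN (ψ : Additive (Gamma0 (N * q)) →+ A) := rfl

theorem coe_betaPar2 (ψ : parabolicHoms R (Gamma0 (N * q)) A) :
    ((betaPar2 hq hqN R A ψ : parabolicHoms R (Gamma0 N) A) : Additive (Gamma0 N) →+ A) =
      beta2 hq hqN (ψ : Additive (Gamma0 (N * q)) →+ A) := rfl

theorem alphaPar1_apply (φ : parabolicHoms R (Gamma0 N) A) (c : Gamma0 (N * q)) :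
    (alphaPar1 R A N q φ : Additive (Gamma0 (N * q)) →+ A) (Additive.ofMul c) =
      (φ : Additive (Gamma0 N) →+ A) (Additive.ofMul (inclQ N q c)) := by
  rw [coe_alphaPar1, alpha1_apply]

theorem alphaPar2_apply (φ : parabolicHoms R (Gamma0 N) A) (c : Gamma0 (N * q)) :
    (alphaPar2 hq hqN R A φ : Additive (Gamma0 (N * q)) →+ A) (Additive.ofMul c) =
      (φ : Additive (Gamma0 N) →+ A) (Additive.ofMul (conjQ hq hqN c)) := by
  rw [coe_alphaPar2, alpha2_apply]

theorem coe_tauPar_of_not_dvd (φ : parabolicHoms R (Gamma0 N) A) :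
    ((tauPar R A N q hq φ : parabolicHoms R (Gamma0 N) A) : Additive (Gamma0 N) →+ A) =
      tauT hq hqN (φ : Additive (Gamma0 N) →+ A) := by
  rw [coe_tauPar]
  unfold tauAll
  rw [dif_neg hqN]

/-- **`β₁ α₁ = q + 1`** -/
theorem betaPar1_alphaPar1 (x : parabolicHoms R (Gamma0 N) A) :
    betaPar1 hq hqN R A (alphaPar1 R A N q x) = (q + 1) • x := by
  apply Subtype.ext
  rw [coe_betaPar1, coe_alphaPar1, beta1_alpha1]
  rfl

/-- **`β₁ α₂ = τ_q`** -/
theorem betaPar1_alphaPar2 (x : parabolicHoms R (Gamma0 N) A) :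
    betaPar1 hq hqN R A (alphaPar2 hq hqN R A x) = tauPar R A N q hq x := by
  apply Subtype.ext
  rw [coe_betaPar1, coe_alphaPar2, beta1_alpha2, coe_tauPar_of_not_dvd hq hqN]

/-- **`β₂ α₁ = τ_q`** -/
theorem betaPar2_alphaPar1 (x : parabolicHoms R (Gamma0 N) A) :
    betaPar2 hq hqN R A (alphaPar1 R A N q x) = tauPar R A N q hq x := by
  apply Subtype.ext
  rw [coe_betaPar2, coe_alphaPar1, beta2_alpha1, coe_tauPar_of_not_dvd hq hqN]

/-- **`β₂ α₂ = q + 1`** -/
theorem betaPar2_alphaPar2 (x : parabolicHoms R (Gamma0 N) A) :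
    betaPar2 hq hqN R A (alphaPar2 hq hqN R A x) = (q + 1) • x := by
  apply Subtype.ext
  rw [coe_betaPar2, coe_alphaPar2, beta2_alpha2]
  rfl

end Bundled

/-! ### the seam of `S41/CongModule`, literally (`R = A = ℤ`, `c = q + 1`) -/

section Seam

variable {N q : ℕ} (hq : q.Prime) (hqN : ¬ q ∣ N)

theorem h11 (x : parabolicHoms ℤ (Gamma0 N) ℤ) :
    betaPar1 hq hqN ℤ ℤ (alphaPar1 ℤ ℤ N q x) = ((q : ℤ) + 1) • x := by
  rw [betaPar1_alphaPar1]
  exact_mod_cast (natCast_zsmul x (q + 1)).symm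

theorem h12 (x : parabolicHoms ℤ (Gamma0 N) ℤ) :
    betaPar1 hq hqN ℤ ℤ (alphaPar2 hq hqN ℤ ℤ x) = tauPar ℤ ℤ N q hq x :=
  betaPar1_alphaPar2 hq hqN ℤ ℤ x

theorem h21 (x : parabolicHoms ℤ (Gamma0 N) ℤ) :
    betaPar2 hq hqN ℤ ℤ (alphaPar1 ℤ ℤ N q x) = tauPar ℤ ℤ N q hq x :=
  betaPar2_alphaPar1 hq hqN ℤ ℤ x

theorem h22 (x : parabolicHoms ℤ (Gamma0 N) ℤ) :
    betaPar2 hq hqN ℤ ℤ (alphaPar2 hq hqN ℤ ℤ x) = ((q : ℤ) + 1) • x := by
  rw [betaPar2_alphaPar2]
  exact_mod_cast (natCast_zsmul x (q + 1)).symm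

end Seam

end Fermat.Agent.S41.Deg.Par
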