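import Mathlib
import Fermat.Agent.S30.Hecke.Parabolic
import Fermat.Agent.S41.Deg.Par

/-!
# PROJECT R (S41), slice R-M2d: `U_q` on the `q`-new part of level `N q`

`q` a prime not dividing `N`, `Γ = Γ₀(N)`, `Γ' = Γ₀(N q)`.  On `Hom(Γ', A)` let `U = τ_q`
(`tauU`, representatives `[1, j; 0, q]`), `β₁, β₂ : Hom(Γ', A) → Hom(Γ, A)` the two corestrictions
and `α₁` the restriction (`S41/Deg/Maps`).  With the Atkin-Lehner element
`w = δ* s_∞ = [q a, u; N q, q]` (`q a - N u = 1`) and `W` the operator of conjugation by `w`: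

* `alpha1_beta2` : `α₁ β₂ = U + W`;
* `alpha1_beta1` : `α₁ β₁ = 1 + U W`;
* `beta1_W` : `β₁ W = β₂`,  `beta2_W` : `β₂ W = β₁`.

Hence on `ker β₁ ∩ ker β₂` : `W = -U`, `U U = 1` and `U` preserves `ker β₁ ∩ ker β₂`:

* **`Uq_mem_ker`**, **`Uq_sq_of_mem_ker`** on `parabolicHoms R (Gamma0 (N * q)) A`
  (`U = tauPar R A (N * q) q hq`), and the literal `ℤ`-forms.

Everything is "independence of the representatives" (`CosetData2.heckeHom_eq_of_reps`) from the
two integral identities `w [1, j; 0, q] = q s_j` and `w w = q γ₀`, `γ₀ ∈ Γ₀(N q)`.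
-/

set_option autoImplicit false
set_option linter.unusedSectionVars false
set_option linter.style.haveILetI false

open CongruenceSubgroup Matrix.SpecialLinearGroup ModularForm ModularCurve.Period
open scoped MatrixGroups

noncomputable section

namespace Fermat.Agent.S41.Deg.NewAtQ

open Fermat.Agent.S30.Hecke.DoubleCoset Fermat.Agent.S30.Hecke.Gamma0Cosets
  Fermat.Agent.S30.Hecke.Parabolic Fermat.Agent.S41.Deg.TwoGroup Fermat.Agent.S41.Deg.Reps
  Fermat.Agent.S41.Deg.Maps Fermat.Agent.S41.Deg.Par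

/-! ### scaling the representatives by a central element -/

section Scale

variable {Γ' Γ G : Type*} [Group Γ'] [Group Γ] [Group G] {ι' : Γ' →* G} {ι : Γ →* G} {X : Type*}

/-- multiply all representatives by a central element: same permutation, same cocycle -/
def scale (z : G) (hz : ∀ u : G, Commute z u) (D : CosetData2 ι' ι X) : CosetData2 ι' ι X where
  rep x := z * D.rep x
  perm := D.perm
  coc := D.coc
  rel g x := by rw [mul_assoc, D.rel, ← mul_assoc, (hz _).eq, mul_assoc]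
  perm_mul := D.perm_mul
  coc_mul := D.coc_mul

theorem heckeHom_scale [Fintype X] {A : Type*} [AddCommGroup A] (z : G)
    (hz : ∀ u : G, Commute z u) (D : CosetData2 ι' ι X) :
    ((scale z hz D).heckeHom : (Additive Γ' →+ A) →+ (Additive Γ →+ A)) = D.heckeHom := rfl

end Scale

variable {N q : ℕ} (hq : q.Prime) (hqN : ¬ q ∣ N)

/-! ### the Atkin-Lehner element and the two integral identities -/

/-- the central element `q = δ δ*` -/
def zq (q : ℕ) : GL (Fin 2) ℝ := heckeDiagMatrix q * heckeMatrix q 0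

theorem zq_comm (hq0 : q ≠ 0) (u : GL (Fin 2) ℝ) : Commute (zq q) u := diag_mul_star_comm hq0 u

theorem zq_inv_comm (hq0 : q ≠ 0) (u : GL (Fin 2) ℝ) : Commute (zq q)⁻¹ u :=
  (zq_comm hq0 u).inv_left

theorem isIntMat_zq (hq0 : q ≠ 0) : IsIntMat (zq q) (dZ q * dsZ q) :=
  (isIntMat_diag hq0).mul (isIntMat_star hq0)

/-- the Atkin-Lehner element `w = δ* s_∞ = [q a, u; N q, q]` -/
def wq : GL (Fin 2) ℝ := heckeMatrix q 0 * iota N (sStar hq hqN none)

/-- its integral matrix -/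
def wZ (N q : ℕ) : Matrix (Fin 2) (Fin 2) ℤ :=
  !![(q : ℤ) * bezA N q, bezU N q; (N : ℤ) * (q : ℤ), (q : ℤ)]

theorem isIntMat_wq : IsIntMat (wq hq hqN) (wZ N q) := by
  have h := (isIntMat_star hq.ne_zero).mul (isIntMat_iota N (sStar hq hqN none))
  have h2 : dsZ q * (((sStar hq hqN none : Gamma0 N) : SL(2, ℤ)) : Matrix (Fin 2) (Fin 2) ℤ) =
      wZ N q := by
    simp only [sStar, dsZ, wZ]
    rw [coe_mkGamma0]
    simp only [Matrix.mul_fin_two]
    exact of_eq (by ring) (by ring) (by ring) (by ring)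
  rw [h2] at h
  exact h

/-- `δ* [1, j; 0, 1] = [1, j; 0, q]` -/
theorem star_mul_sStar_some (j : Fin q) :
    heckeMatrix q 0 * iota N (sStar hq hqN (some j)) = heckeMatrix q j := by
  have h := repT_eq_tStar hq hqN (some j)
  have h1 : tStar hq hqN (some j) = 1 := rfl
  rw [h1, map_one, one_mul] at h
  exact h.symm

/-- **`w [1, j; 0, q] = q s_j`** -/
theorem wq_mul_heckeMatrix (j : Fin q) :
    wq hq hqN * heckeMatrix q j = zq q * iota N (sRep hq hqN (some j)) := by
  have h1 : IsIntMat (heckeMatrix q j) (repZ q (some j)) := isIntMat_repT hq.ne_zero (some j)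
  refine (((isIntMat_wq hq hqN).mul h1).eq_iff
    ((isIntMat_zq hq.ne_zero).mul (isIntMat_iota N _))).mpr ?_
  simp only [sRep, wZ, repZ, dZ, dsZ]
  rw [coe_mkGamma0]
  simp only [Matrix.mul_fin_two]
  exact of_eq (by ring) (by ring) (by ring) (by ring)

/-- `γ₀ = w w / q ∈ Γ₀(N q)` -/
def gamma0 : Gamma0 (N * q) :=
  mkGamma0 (N * q) ((q : ℤ) * bezA N q ^ 2 + bezU N q * (N : ℤ)) (bezU N q * (bezA N q + 1))
    ((N : ℤ) * (q : ℤ) * (bezA N q + 1)) ((N : ℤ) * bezU N q + (q : ℤ))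
    (by linear_combination ((q : ℤ) * bezA N q - (N : ℤ) * bezU N q + 1) * bez_eq hq hqN)
    (by push_cast; exact Dvd.intro _ rfl)

/-- **`w w = q γ₀`** -/
theorem wq_mul_wq : wq hq hqN * wq hq hqN = zq q * iota (N * q) (gamma0 hq hqN) := by
  refine (((isIntMat_wq hq hqN).mul (isIntMat_wq hq hqN)).eq_iff
    ((isIntMat_zq hq.ne_zero).mul (isIntMat_iota (N * q) _))).mpr ?_
  simp only [gamma0, wZ, dZ, dsZ]
  rw [coe_mkGamma0]
  simp only [Matrix.mul_fin_two]
  exact of_eq (by ring) (by ring) (by ring) (by ring)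

/-- `w s_j = γ₀ [1, j; 0, q]` -/
theorem wq_mul_sRep_some (j : Fin q) :
    wq hq hqN * iota N (sRep hq hqN (some j)) =
      iota (N * q) (gamma0 hq hqN) * heckeMatrix q j := by
  have h1 := wq_mul_heckeMatrix hq hqN j
  have h2 := wq_mul_wq hq hqN
  have h3 : iota N (sRep hq hqN (some j)) = (zq q)⁻¹ * (wq hq hqN * heckeMatrix q j) := by
    rw [h1, inv_mul_cancel_left]
  rw [h3, ← mul_assoc, ((zq_inv_comm hq.ne_zero _).eq).symm, mul_assoc, ← mul_assoc (wq hq hqN),
    h2, mul_assoc, inv_mul_cancel_left]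

/-! ### separation of the representatives -/

/-- the representatives `s_x` of `Γ₀(N q) \ Γ₀(N)` are separated -/
theorem sRep_sep (x x' : Option (Fin q)) (g : Gamma0 (N * q))
    (h : iota N (sRep hq hqN x) = iota (N * q) g * iota N (sRep hq hqN x')) : x = x' := by
  refine cosetT_sep hq hqN x x'
    (tRep hq hqN x * conjQ hq hqN g * (tRep hq hqN x')⁻¹) ?_
  rw [cosetT_rep, repT_eq_tRep hq hqN x, repT_eq_tRep hq hqN x', h, map_mul, map_mul, map_inv,
    ← mul_assoc (heckeDiagMatrix q), diag_mul_iota hq hqN g]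
  group

/-- the representatives `δ* s*_x` are separated -/
theorem sStar_sep (x x' : Option (Fin q)) (g : Gamma0 (N * q))
    (h : heckeMatrix q 0 * iota N (sStar hq hqN x) =
      iota (N * q) g * (heckeMatrix q 0 * iota N (sStar hq hqN x'))) : x = x' := by
  refine cosetT_sep hq hqN x x'
    (tStar hq hqN x * inclQ N q g * (tStar hq hqN x')⁻¹) ?_
  rw [cosetT_rep, repT_eq_tStar hq hqN x, repT_eq_tStar hq hqN x', h, map_mul, map_mul, map_inv,
    ← iota_inclQ]
  group

/-! ### the Atkin-Lehner automorphism of `Γ₀(N q)` -/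

/-- elements of `Γ₀(N q)` fix the coset of `δ` -/
theorem perm_coc_none (c : Gamma0 (N * q)) :
    (cosetT hq hqN).perm (inclQ N q c) none = none ∧
      (cosetT hq hqN).coc (inclQ N q c) none = conjQ hq hqN c :=
  (cosetT hq hqN).eq_of_rel (iota_injective N) (cosetT_sep hq hqN) (diag_mul_iota hq hqN c)

theorem coresStarD_perm_none (c : Gamma0 (N * q)) :
    (coresStarD hq hqN).perm (inclQ N q c) none = none := (perm_coc_none hq hqN c).1

/-- `c ↦ w c w⁻¹` as a function -/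
def fWfun (c : Gamma0 (N * q)) : Gamma0 (N * q) := (coresStarD hq hqN).coc (inclQ N q c) none

/-- **the Atkin-Lehner automorphism `c ↦ w c w⁻¹` of `Γ₀(N q)`** -/
def fW : Gamma0 (N * q) →* Gamma0 (N * q) :=
  MonoidHom.mk' (fWfun hq hqN) (by
    intro c₁ c₂
    unfold fWfun
    rw [map_mul, (coresStarD hq hqN).coc_mul, coresStarD_perm_none])

theorem wq_mul_iota (c : Gamma0 (N * q)) :
    wq hq hqN * iota (N * q) c = iota (N * q) (fW hq hqN c) * wq hq hqN := by
  have h := (coresStarD hq hqN).rel (inclQ N q c) none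
  rw [coresStarD_perm_none] at h
  exact h

/-- the coset datum of `W` -/
def Wd : CosetData2 (iota (N * q)) (iota (N * q)) Unit :=
  CosetData2.conjData (wq hq hqN) (fW hq hqN) (wq_mul_iota hq hqN)

/-- the coset datum of `U_q` at level `N q` -/
def Ud : CosetData2 (iota (N * q)) (iota (N * q)) (Fin q) :=
  CosetData2.ofCosetData (cosetU hq (Dvd.intro_left N rfl))

/-! ### the four identities on `Hom(Γ₀(N q), A)` -/

section Identities

variable {A : Type*} [AddCommGroup A]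

/-- the operator `W` on `Hom(Γ₀(N q), A)` -/
def Wop : (Additive (Gamma0 (N * q)) →+ A) →+ (Additive (Gamma0 (N * q)) →+ A) :=
  (Wd hq hqN).heckeHom

/-- the operator `U_q` on `Hom(Γ₀(N q), A)` -/
def Uop (N : ℕ) : (Additive (Gamma0 (N * q)) →+ A) →+ (Additive (Gamma0 (N * q)) →+ A) :=
  (Ud (N := N) hq).heckeHom

theorem Uop_eq_tauAll (y : Additive (Gamma0 (N * q)) →+ A) :
    Uop hq N y = tauAll (N * q) q hq y := by
  unfold tauAll
  rw [dif_pos (Dvd.intro_left N rfl)]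
  rfl

theorem resD_rep (u : Unit) : (resD N q).rep u = 1 := rfl

theorem coresD_rep (x : Option (Fin q)) : (coresD hq hqN).rep x = iota N (sRep hq hqN x) := rfl

theorem coresStarD_rep (x : Option (Fin q)) :
    (coresStarD hq hqN).rep x = heckeMatrix q 0 * iota N (sStar hq hqN x) := rfl

theorem Wd_rep (u : Unit) : (Wd hq hqN).rep u = wq hq hqN := rfl

theorem Ud_rep (j : Fin q) : (Ud (N := N) hq).rep j = heckeMatrix q j := rfl

/-- **`α₁ β₂ = U + W`** -/
theorem alpha1_beta2 (y : Additive (Gamma0 (N * q)) →+ A) :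
    alpha1 N q (beta2 hq hqN y) = Uop hq N y + Wop hq hqN y := by
  unfold alpha1 beta2 Uop Wop
  rw [← CosetData2.heckeHom_comp, ← CosetData2.heckeHom_sum]
  refine congrArg (fun f => f y) (CosetData2.heckeHom_eq_of_reps
    (CosetData2.sum (Ud hq) (Wd hq hqN)) (CosetData2.comp (coresStarD hq hqN) (resD N q))
    (iota_injective (N * q)) ?_
    (((Equiv.optionEquivSumPUnit (Fin q)).symm).trans (Equiv.prodPUnit _).symm)
    (fun _ => 1) ?_)
  · rintro ⟨x, ⟨⟩⟩ ⟨x', ⟨⟩⟩ g h
    rw [CosetData2.comp_rep, CosetData2.comp_rep, resD_rep, mul_one, mul_one, coresStarD_rep,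
      coresStarD_rep] at h
    rw [sStar_sep hq hqN x x' g h]
  · rintro (j | ⟨⟩)
    · show (coresStarD hq hqN).rep (some j) * (resD N q).rep () = iota (N * q) 1 * heckeMatrix q j
      rw [resD_rep, mul_one, map_one, one_mul, coresStarD_rep, star_mul_sStar_some]
    · show (coresStarD hq hqN).rep none * (resD N q).rep () = iota (N * q) 1 * wq hq hqN
      rw [resD_rep, mul_one, map_one, one_mul, coresStarD_rep]
      rfl

/-- the index bijection for `α₁ β₁ = 1 + U W` -/
def eOne (q : ℕ) : (Unit ⊕ (Unit × Fin q)) ≃ (Option (Fin q) × Unit) where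
  toFun x := match x with
    | Sum.inl _ => (none, ())
    | Sum.inr p => (some p.2, ())
  invFun x := match x.1 with
    | none => Sum.inl ()
    | some j => Sum.inr ((), j)
  left_inv := by rintro (⟨⟩ | ⟨⟨⟩, j⟩) <;> rfl
  right_inv := by rintro ⟨(_ | j), ⟨⟩⟩ <;> rfl

theorem sRep_none : sRep hq hqN none = 1 := rfl

/-- **`α₁ β₁ = 1 + U W`** -/
theorem alpha1_beta1 (y : Additive (Gamma0 (N * q)) →+ A) :
    alpha1 N q (beta1 hq hqN y) = y + Uop hq N (Wop hq hqN y) := by
  have h1 : (CosetData2.resData (ι' := iota (N * q)) (ι := iota (N * q))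
      (MonoidHom.id (Gamma0 (N * q))) (fun _ => rfl)).heckeHom y = y := by
    rw [CosetData2.heckeHom_resData]
    rfl
  unfold alpha1 beta1 Uop Wop
  rw [← CosetData2.heckeHom_comp, ← CosetData2.heckeHom_comp,
    ← heckeHom_scale (zq q)⁻¹ (zq_inv_comm hq.ne_zero) (CosetData2.comp (Wd hq hqN) (Ud hq))]
  nth_rewrite 2 [← h1]
  rw [← CosetData2.heckeHom_sum]
  refine congrArg (fun f => f y) (CosetData2.heckeHom_eq_of_reps
    (CosetData2.sum (CosetData2.resData (ι' := iota (N * q)) (ι := iota (N * q))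
      (MonoidHom.id (Gamma0 (N * q))) (fun _ => rfl))
      (scale (zq q)⁻¹ (zq_inv_comm hq.ne_zero) (CosetData2.comp (Wd hq hqN) (Ud hq))))
    (CosetData2.comp (coresD hq hqN) (resD N q))
    (iota_injective (N * q)) ?_ (eOne q) (fun _ => 1) ?_)
  · rintro ⟨x, ⟨⟩⟩ ⟨x', ⟨⟩⟩ g h
    rw [CosetData2.comp_rep, CosetData2.comp_rep, resD_rep, mul_one, mul_one, coresD_rep,
      coresD_rep] at h
    rw [sRep_sep hq hqN x x' g h]
  · rintro (⟨⟩ | ⟨⟨⟩, j⟩)
    · show (coresD hq hqN).rep none * (resD N q).rep () = iota (N * q) 1 * 1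
      rw [resD_rep, mul_one, map_one, one_mul, coresD_rep, sRep_none, map_one]
    · show (coresD hq hqN).rep (some j) * (resD N q).rep () =
        iota (N * q) 1 * ((zq q)⁻¹ * (wq hq hqN * heckeMatrix q j))
      rw [resD_rep, mul_one, map_one, one_mul, coresD_rep, wq_mul_heckeMatrix,
        inv_mul_cancel_left]

/-- **`β₁ W = β₂`** -/
theorem beta1_W (y : Additive (Gamma0 (N * q)) →+ A) :
    beta1 hq hqN (Wop hq hqN y) = beta2 hq hqN y := by
  unfold beta1 beta2 Wop
  rw [← CosetData2.heckeHom_comp]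
  refine (congrArg (fun f => f y) (CosetData2.heckeHom_eq_of_reps
    (CosetData2.comp (Wd hq hqN) (coresD hq hqN)) (coresStarD hq hqN)
    (iota_injective (N * q)) (sStar_sep hq hqN) (Equiv.punitProd _)
    (fun x => match x.2 with
      | none => 1
      | some _ => (gamma0 hq hqN)⁻¹) ?_)).symm
  rintro ⟨⟨⟩, (_ | j)⟩
  · show (coresStarD hq hqN).rep none = iota (N * q) 1 * (wq hq hqN * (coresD hq hqN).rep none)
    rw [map_one, one_mul, coresD_rep, sRep_none, map_one, mul_one]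
    rfl
  · show (coresStarD hq hqN).rep (some j) =
      iota (N * q) (gamma0 hq hqN)⁻¹ * (wq hq hqN * (coresD hq hqN).rep (some j))
    rw [coresD_rep, coresStarD_rep, star_mul_sStar_some, wq_mul_sRep_some, map_inv,
      inv_mul_cancel_left]

/-- **`β₂ W = β₁`** -/
theorem beta2_W (y : Additive (Gamma0 (N * q)) →+ A) :
    beta2 hq hqN (Wop hq hqN y) = beta1 hq hqN y := by
  unfold beta1 beta2 Wop
  rw [← CosetData2.heckeHom_comp,
    ← heckeHom_scale (zq q)⁻¹ (zq_inv_comm hq.ne_zero)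
      (CosetData2.comp (Wd hq hqN) (coresStarD hq hqN))]
  refine (congrArg (fun f => f y) (CosetData2.heckeHom_eq_of_reps
    (scale (zq q)⁻¹ (zq_inv_comm hq.ne_zero) (CosetData2.comp (Wd hq hqN) (coresStarD hq hqN)))
    (coresD hq hqN)
    (iota_injective (N * q)) (sRep_sep hq hqN) (Equiv.punitProd _)
    (fun x => match x.2 with
      | none => (gamma0 hq hqN)⁻¹
      | some _ => 1) ?_)).symm
  rintro ⟨⟨⟩, (_ | j)⟩
  · show (coresD hq hqN).rep none = iota (N * q) (gamma0 hq hqN)⁻¹ *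
      ((zq q)⁻¹ * (wq hq hqN * (coresStarD hq hqN).rep none))
    have h : (coresStarD hq hqN).rep none = wq hq hqN := rfl
    rw [h, wq_mul_wq, inv_mul_cancel_left, map_inv, inv_mul_cancel, coresD_rep, sRep_none,
      map_one]
  · show (coresD hq hqN).rep (some j) = iota (N * q) 1 *
      ((zq q)⁻¹ * (wq hq hqN * (coresStarD hq hqN).rep (some j)))
    rw [map_one, one_mul, coresStarD_rep, star_mul_sStar_some, wq_mul_heckeMatrix,
      inv_mul_cancel_left, coresD_rep]

/-! ### consequences on `ker β₁ ∩ ker β₂` -/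

theorem Wop_eq_neg_Uop (y : Additive (Gamma0 (N * q)) →+ A) (h2 : beta2 hq hqN y = 0) :
    Wop hq hqN y = -Uop hq N y := by
  have h := alpha1_beta2 hq hqN y
  rw [h2, map_zero] at h
  exact eq_neg_of_add_eq_zero_right h.symm

/-- **`U U = 1` on `ker β₁ ∩ ker β₂`** -/
theorem Uop_Uop_of_mem_ker (y : Additive (Gamma0 (N * q)) →+ A) (h1 : beta1 hq hqN y = 0)
    (h2 : beta2 hq hqN y = 0) : Uop hq N (Uop hq N y) = y := by
  have h := alpha1_beta1 hq hqN y
  rw [h1, map_zero, Wop_eq_neg_Uop hq hqN y h2, map_neg] at h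
  have h3 : y - Uop hq N (Uop hq N y) = 0 := by rw [sub_eq_add_neg]; exact h.symm
  exact (sub_eq_zero.mp h3).symm

/-- **`U` preserves `ker β₁ ∩ ker β₂`** -/
theorem beta_Uop_of_mem_ker (y : Additive (Gamma0 (N * q)) →+ A) (h1 : beta1 hq hqN y = 0)
    (h2 : beta2 hq hqN y = 0) :
    beta1 hq hqN (Uop hq N y) = 0 ∧ beta2 hq hqN (Uop hq N y) = 0 := by
  have h : Uop hq N y = -Wop hq hqN y := by rw [Wop_eq_neg_Uop hq hqN y h2, neg_neg]
  rw [h, map_neg, map_neg, beta1_W, beta2_W, h1, h2, neg_zero]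
  exact ⟨rfl, rfl⟩

end Identities

/-! ### the statements on parabolic homomorphisms -/

section Par

variable (R : Type*) [Semiring R] (A : Type*) [AddCommGroup A] [Module R A]

theorem coe_tauPar_q (y : parabolicHoms R (Gamma0 (N * q)) A) :
    ((tauPar R A (N * q) q hq y : parabolicHoms R (Gamma0 (N * q)) A) :
      Additive (Gamma0 (N * q)) →+ A) = Uop hq N (y : Additive (Gamma0 (N * q)) →+ A) := by
  rw [coe_tauPar, Uop_eq_tauAll]

theorem betaPar1_eq_zero_iff (y : parabolicHoms R (Gamma0 (N * q)) A) :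
    betaPar1 hq hqN R A y = 0 ↔ beta1 hq hqN (y : Additive (Gamma0 (N * q)) →+ A) = 0 := by
  rw [← coe_betaPar1 hq hqN R A y, Subtype.ext_iff]
  rfl

theorem betaPar2_eq_zero_iff (y : parabolicHoms R (Gamma0 (N * q)) A) :
    betaPar2 hq hqN R A y = 0 ↔ beta2 hq hqN (y : Additive (Gamma0 (N * q)) →+ A) = 0 := by
  rw [← coe_betaPar2 hq hqN R A y, Subtype.ext_iff]
  rfl

/-- **`U_q` preserves the `q`-new part `ker β₁ ∩ ker β₂`** -/
theorem Uq_mem_ker_gen (y : parabolicHoms R (Gamma0 (N * q)) A)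
    (h1 : betaPar1 hq hqN R A y = 0) (h2 : betaPar2 hq hqN R A y = 0) :
    betaPar1 hq hqN R A (tauPar R A (N * q) q hq y) = 0 ∧
      betaPar2 hq hqN R A (tauPar R A (N * q) q hq y) = 0 := by
  rw [betaPar1_eq_zero_iff] at h1 ⊢
  rw [betaPar2_eq_zero_iff] at h2 ⊢
  rw [coe_tauPar_q]
  exact beta_Uop_of_mem_ker hq hqN _ h1 h2

/-- **`U_q U_q = 1` on the `q`-new part `ker β₁ ∩ ker β₂`** -/
theorem Uq_sq_of_mem_ker_gen (y : parabolicHoms R (Gamma0 (N * q)) A)
    (h1 : betaPar1 hq hqN R A y = 0) (h2 : betaPar2 hq hqN R A y = 0) :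
    tauPar R A (N * q) q hq (tauPar R A (N * q) q hq y) = y := by
  rw [betaPar1_eq_zero_iff] at h1
  rw [betaPar2_eq_zero_iff] at h2
  apply Subtype.ext
  rw [coe_tauPar_q, coe_tauPar_q]
  exact Uop_Uop_of_mem_ker hq hqN _ h1 h2

end Par

/-! ### the literal seam (`R = A = ℤ`) -/

/-- (a) of R-M2d -/
theorem Uq_mem_ker (y : parabolicHoms ℤ (Gamma0 (N * q)) ℤ)
    (h1 : betaPar1 hq hqN ℤ ℤ y = 0) (h2 : betaPar2 hq hqN ℤ ℤ y = 0) :
    betaPar1 hq hqN ℤ ℤ (tauPar ℤ ℤ (N * q) q hq y) = 0 ∧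
      betaPar2 hq hqN ℤ ℤ (tauPar ℤ ℤ (N * q) q hq y) = 0 :=
  Uq_mem_ker_gen hq hqN ℤ ℤ y h1 h2

/-- (b) of R-M2d -/
theorem Uq_sq_of_mem_ker (y : parabolicHoms ℤ (Gamma0 (N * q)) ℤ)
    (h1 : betaPar1 hq hqN ℤ ℤ y = 0) (h2 : betaPar2 hq hqN ℤ ℤ y = 0) :
    tauPar ℤ ℤ (N * q) q hq (tauPar ℤ ℤ (N * q) q hq y) = y :=
  Uq_sq_of_mem_ker_gen hq hqN ℤ ℤ y h1 h2

end Fermat.Agent.S41.Deg.NewAtQ
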