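import Mathlib
import Fermat.Agent.S30.Hecke.Parabolic
import Fermat.Agent.S41.Deg.Par
import Fermat.Agent.S41.Deg.NewAtQ

/-!
# PROJECT R (S41), slice R-M2c: the degeneracy maps commute with the Hecke operators away from `q`

`q` a prime not dividing `N`, `r ≠ q` a prime.  With `τ_r = tauAll - r` at the levels `N` and `N q`
(`T_r` if `r ∤ N q`, `U_r` if `r ∣ N`):

* `alpha1_tauAll`, `alpha2_tauAll` : `α_i (τ_r φ) = τ_r (α_i φ)`;
* `beta1_tauAll`, `beta2_tauAll` : `β_i (τ_r ψ) = τ_r (β_i ψ)`;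
* the bundled versions `alphaPar1_tauPar`, `alphaPar2_tauPar`, `betaPar1_tauPar`, `betaPar2_tauPar`
  on `parabolicHoms`, and `degComm` : the seam `DegComm` of `S41/Lift`, literally.

Method: both composites are double-coset operators of composite two-group coset data
(`S41/Deg/CosetData2`); the two families of representatives generate the same left cosets, which
is checked by an abstract counting lemma (`heckeHom_eq_of_exists`: separation of both families +
existence in one direction).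
-/

set_option autoImplicit false
set_option linter.unusedSectionVars false
set_option linter.style.haveILetI false

open CongruenceSubgroup Matrix.SpecialLinearGroup ModularForm ModularCurve.Period
open scoped MatrixGroups

noncomputable section

namespace Fermat.Agent.S41.Deg.HeckeComm

open Fermat.Agent.S30.Hecke.DoubleCoset Fermat.Agent.S30.Hecke.Gamma0Cosets
  Fermat.Agent.S30.Hecke.Parabolic Fermat.Agent.S41.Deg.TwoGroup Fermat.Agent.S41.Deg.Reps
  Fermat.Agent.S41.Deg.Maps Fermat.Agent.S41.Deg.Par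

/-! ### the abstract counting lemma -/

section Abstract

variable {Γ' Γ G : Type*} [Group Γ'] [Group Γ] [Group G] {ι' : Γ' →* G} {ι : Γ →* G}
  {X X' : Type*} [Fintype X] [Fintype X']

/-- **two separated families of representatives of the same cardinality, one of which is contained
in the cosets of the other, define the same operator** -/
theorem heckeHom_eq_of_exists (D : CosetData2 ι' ι X) (D' : CosetData2 ι' ι X')
    {A : Type*} [AddCommGroup A] (hι' : Function.Injective ι')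
    (hsep : ∀ (x₁ x₂ : X) (g : Γ'), D.rep x₁ = ι' g * D.rep x₂ → x₁ = x₂)
    (hsep' : ∀ (x x' : X') (g : Γ'), D'.rep x = ι' g * D'.rep x' → x = x')
    (hcard : Fintype.card X = Fintype.card X')
    (hex : ∀ x : X, ∃ (x' : X') (t : Γ'), D'.rep x' = ι' t * D.rep x) :
    (D'.heckeHom : (Additive Γ' →+ A) →+ (Additive Γ →+ A)) = D.heckeHom := by
  classical
  choose e₀ t ht using hex
  have hinj : Function.Injective e₀ := by
    intro x₁ x₂ h
    refine hsep x₁ x₂ ((t x₁)⁻¹ * t x₂) ?_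
    have h1 := ht x₁
    have h2 := ht x₂
    rw [h] at h1
    rw [map_mul, map_inv, mul_assoc, ← h2, h1, inv_mul_cancel_left]
  have hbij : Function.Bijective e₀ :=
    (Fintype.bijective_iff_injective_and_card e₀).mpr ⟨hinj, hcard⟩
  exact CosetData2.heckeHom_eq_of_reps D D' hι' hsep' (Equiv.ofBijective e₀ hbij) t ht

end Abstract


/-! ### the integral bookkeeping for a second prime `r ≠ q` -/

section Integral

variable {N q r : ℕ}

/-- the unipotent `[1, k; 0, 1] ∈ Γ₀(N)` -/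
def upG (N : ℕ) (k : ℤ) : Gamma0 N := mkGamma0 N 1 k 0 1 (by ring) (dvd_zero _)

theorem coe_upG (N : ℕ) (k : ℤ) :
    (((upG N k : Gamma0 N) : SL(2, ℤ)) : Matrix (Fin 2) (Fin 2) ℤ) = !![1, k; 0, 1] := rfl

/-- the permutation `j ↦ q j mod r` of the representatives of `T_r` -/
def sigT (q r : ℕ) (hr0 : 0 < r) : Option (Fin r) → Option (Fin r)
  | none => none
  | some j => some ⟨(q * (j : ℕ)) % r, Nat.mod_lt _ hr0⟩

/-- the correcting unipotents `[1, ⌊q j / r⌋; 0, 1]` -/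
def uT (N q r : ℕ) : Option (Fin r) → Gamma0 N
  | none => 1
  | some j => upG N (((q * (j : ℕ)) / r : ℕ) : ℤ)

theorem sigT_injective (hr0 : 0 < r) (hqr : Nat.Coprime r q) :
    Function.Injective (sigT q r hr0) := by
  intro x x' h
  rcases x with _ | j <;> rcases x' with _ | j'
  · rfl
  · simp [sigT] at h
  · simp [sigT] at h
  · simp only [sigT, Option.some.injEq, Fin.mk.injEq] at h
    have h1 : (j : ℕ) ≡ (j' : ℕ) [MOD r] := Nat.ModEq.cancel_left_of_coprime hqr h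
    have h2 : (j : ℕ) = (j' : ℕ) := Nat.ModEq.eq_of_lt_of_lt h1 j.2 j'.2
    rw [Fin.ext h2]

/-- `δ ρ_x = u_x ρ_{σ x} δ`, over `ℤ` -/
theorem dZ_mul_repZ (hr0 : 0 < r) (x : Option (Fin r)) :
    dZ q * repZ r x = (((uT N q r x : Gamma0 N) : SL(2, ℤ)) : Matrix (Fin 2) (Fin 2) ℤ) *
      (repZ r (sigT q r hr0 x) * dZ q) := by
  rcases x with _ | j
  · simp only [uT, sigT, repZ, dZ]
    rw [OneMemClass.coe_one, Matrix.SpecialLinearGroup.coe_one, one_mul]
    simp only [Matrix.mul_fin_two]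
    exact of_eq (by ring) (by ring) (by ring) (by ring)
  · have hd : ((q * (j : ℕ) % r : ℕ) : ℤ) + (r : ℤ) * ((q * (j : ℕ) / r : ℕ) : ℤ) =
        (q : ℤ) * ((j : ℕ) : ℤ) := by exact_mod_cast Nat.mod_add_div (q * (j : ℕ)) r
    simp only [uT, sigT, repZ, dZ]
    rw [coe_upG]
    simp only [Matrix.mul_fin_two]
    exact of_eq (by ring) (by linear_combination -hd) (by ring) (by ring)

/-- `ρ_x δ* = δ* u_x ρ_{σ x}`, over `ℤ` -/
theorem repZ_mul_dsZ (hr0 : 0 < r) (x : Option (Fin r)) :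
    repZ r x * dsZ q = dsZ q *
      (((uT N q r x : Gamma0 N) : SL(2, ℤ)) : Matrix (Fin 2) (Fin 2) ℤ) *
        repZ r (sigT q r hr0 x) := by
  rcases x with _ | j
  · simp only [uT, sigT, repZ, dsZ]
    rw [OneMemClass.coe_one, Matrix.SpecialLinearGroup.coe_one, mul_one]
    simp only [Matrix.mul_fin_two]
    exact of_eq (by ring) (by ring) (by ring) (by ring)
  · have hd : ((q * (j : ℕ) % r : ℕ) : ℤ) + (r : ℤ) * ((q * (j : ℕ) / r : ℕ) : ℤ) =
        (q : ℤ) * ((j : ℕ) : ℤ) := by exact_mod_cast Nat.mod_add_div (q * (j : ℕ)) r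
    simp only [uT, sigT, repZ, dsZ]
    rw [coe_upG]
    simp only [Matrix.mul_fin_two]
    exact of_eq (by ring) (by linear_combination -hd) (by ring) (by ring)

/-- `δ ρ_x = u_x ρ_{σ x} δ` in `GL₂(ℝ)` -/
theorem diag_mul_repT (hq0 : q ≠ 0) (hr0 : 0 < r) (x : Option (Fin r)) :
    heckeDiagMatrix q * repT r x =
      iota N (uT N q r x) * (repT r (sigT q r hr0 x) * heckeDiagMatrix q) :=
  (((isIntMat_diag hq0).mul (isIntMat_repT hr0.ne' x)).eq_iff
    ((isIntMat_iota N _).mul ((isIntMat_repT hr0.ne' _).mul (isIntMat_diag hq0)))).mpr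
    (dZ_mul_repZ hr0 x)

/-- `ρ_x δ* = δ* u_x ρ_{σ x}` in `GL₂(ℝ)` -/
theorem repT_mul_star (hq0 : q ≠ 0) (hr0 : 0 < r) (x : Option (Fin r)) :
    repT r x * heckeMatrix q 0 =
      heckeMatrix q 0 * iota N (uT N q r x) * repT r (sigT q r hr0 x) :=
  (((isIntMat_repT hr0.ne' x).mul (isIntMat_star hq0)).eq_iff
    (((isIntMat_star hq0).mul (isIntMat_iota N _)).mul (isIntMat_repT hr0.ne' _))).mpr
    (repZ_mul_dsZ hr0 x)


/-- `q ∣ k * c`, `q` prime, `q ≠ r` prime, `k ∈ {1, r}` -/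
theorem dvd_of_dvd_mul_other (hq : q.Prime) (hr : r.Prime) (hrq : r ≠ q) {c : ℤ}
    (h : (q : ℤ) ∣ (r : ℤ) * c) : (q : ℤ) ∣ c := by
  have hcop : IsCoprime (q : ℤ) (r : ℤ) := by
    rw [Int.isCoprime_iff_gcd_eq_one, Int.gcd_natCast_natCast]
    exact (Nat.coprime_primes hq hr).mpr (Ne.symm hrq)
  exact hcop.dvd_of_dvd_mul_left h

/-- if `ρ_x h = g ρ_{x₂}` with `h ∈ Γ₀(N)`, `g ∈ Γ₀(N q)`, then `h ∈ Γ₀(N q)` -/
theorem mem_of_rel_incl (hq : q.Prime) (hqN : ¬ q ∣ N) (hr : r.Prime) (hrq : r ≠ q)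
    (x x₂ : Option (Fin r)) (h : Gamma0 N) (g : Gamma0 (N * q))
    (hrel : repT r x * iota N h = iota (N * q) g * repT r x₂) :
    (h : SL(2, ℤ)) ∈ Gamma0 (N * q) := by
  refine mem_Gamma0_mul_of_dvd hq hqN h ?_
  have h1 := (((isIntMat_repT hr.ne_zero x).mul (isIntMat_iota N h)).eq_iff
    ((isIntMat_iota (N * q) g).mul (isIntMat_repT hr.ne_zero x₂))).mp hrel
  have hg : (q : ℤ) ∣ (g : SL(2, ℤ)) 1 0 := dvd_entry_mul g
  rw [coe_eq_of N h, coe_eq_of (N * q) g] at h1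
  rcases x with _ | j <;> rcases x₂ with _ | j₂
  · simp only [repZ, Matrix.mul_fin_two] at h1
    have h10 := congrFun (congrFun h1 1) 0
    simp at h10
    rw [h10]
    exact Dvd.dvd.mul_right hg _
  · simp only [repZ, Matrix.mul_fin_two] at h1
    have h10 := congrFun (congrFun h1 1) 0
    simp at h10
    rw [h10]
    exact hg
  · simp only [repZ, Matrix.mul_fin_two] at h1
    have h10 := congrFun (congrFun h1 1) 0
    simp at h10
    refine dvd_of_dvd_mul_other hq hr hrq ?_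
    rw [h10]
    exact Dvd.dvd.mul_right hg _
  · simp only [repZ, Matrix.mul_fin_two] at h1
    have h10 := congrFun (congrFun h1 1) 0
    simp at h10
    refine dvd_of_dvd_mul_other hq hr hrq ?_
    rw [h10]
    exact hg

/-- `g δ* = δ* (δ g δ⁻¹)`, over `ℤ` -/
theorem coe_mul_dsZ (hq : q.Prime) (hqN : ¬ q ∣ N) (g : Gamma0 (N * q)) :
    ((g : SL(2, ℤ)) : Matrix (Fin 2) (Fin 2) ℤ) * dsZ q =
      dsZ q * (((conjQ hq hqN g : Gamma0 N) : SL(2, ℤ)) : Matrix (Fin 2) (Fin 2) ℤ) := by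
  have h2 := Int.ediv_mul_cancel (dvd_entry_mul (N := N) g)
  rw [coe_conjQ]
  conv_lhs => rw [coe_eq_of (N * q) g]
  simp only [dsZ, Matrix.mul_fin_two]
  exact of_eq (by ring) (by ring) (by linear_combination -h2) (by ring)

/-- `g δ* = δ* (δ g δ⁻¹)` in `GL₂(ℝ)` -/
theorem iota_mul_star (hq : q.Prime) (hqN : ¬ q ∣ N) (g : Gamma0 (N * q)) :
    iota (N * q) g * heckeMatrix q 0 = heckeMatrix q 0 * iota N (conjQ hq hqN g) :=
  (((isIntMat_iota _ g).mul (isIntMat_star hq.ne_zero)).eq_iff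
    ((isIntMat_star hq.ne_zero).mul (isIntMat_iota _ _))).mpr (coe_mul_dsZ hq hqN g)

/-- an element of `Γ₀(N)` with upper right entry divisible by `q` is `δ*⁻¹ g' δ*`, `g' ∈ Γ₀(N q)` -/
theorem exists_star_conj (hq : q.Prime) (h : Gamma0 N) (hd : (q : ℤ) ∣ (h : SL(2, ℤ)) 0 1) :
    ∃ g' : Gamma0 (N * q), heckeMatrix q 0 * iota N h = iota (N * q) g' * heckeMatrix q 0 := by
  have h2 := Int.ediv_mul_cancel hd
  refine ⟨mkGamma0 (N * q) ((h : SL(2, ℤ)) 0 0) ((h : SL(2, ℤ)) 0 1 / (q : ℤ))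
    ((q : ℤ) * (h : SL(2, ℤ)) 1 0) ((h : SL(2, ℤ)) 1 1)
    (by
      have hdet := det_entries N h
      linear_combination hdet - ((h : SL(2, ℤ)) 1 0) * h2)
    (by
      push_cast
      rw [mul_comm (N : ℤ) (q : ℤ)]
      exact mul_dvd_mul_left _ (dvd_entry N h)), ?_⟩
  refine (((isIntMat_star hq.ne_zero).mul (isIntMat_iota _ h)).eq_iff
    ((isIntMat_iota _ _).mul (isIntMat_star hq.ne_zero))).mpr ?_
  rw [coe_mkGamma0]
  conv_lhs => rw [coe_eq_of N h]
  simp only [dsZ, Matrix.mul_fin_two]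
  exact of_eq (by ring) (by linear_combination -h2) (by ring) (by ring)

/-- if `ρ_x δ* h = g ρ_{x₂} δ*` with `h ∈ Γ₀(N)`, `g ∈ Γ₀(N q)`, then `q` divides the upper right
entry of `h` -/
theorem dvd_of_rel_star (hq : q.Prime) (hr : r.Prime) (hrq : r ≠ q)
    (x x₂ : Option (Fin r)) (h : Gamma0 N) (g : Gamma0 (N * q))
    (hrel : repT r x * heckeMatrix q 0 * iota N h =
      iota (N * q) g * (repT r x₂ * heckeMatrix q 0)) :
    (q : ℤ) ∣ (h : SL(2, ℤ)) 0 1 := by
  have h1 := ((((isIntMat_repT hr.ne_zero x).mul (isIntMat_star hq.ne_zero)).mul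
    (isIntMat_iota N h)).eq_iff
    ((isIntMat_iota (N * q) g).mul ((isIntMat_repT hr.ne_zero x₂).mul
      (isIntMat_star hq.ne_zero)))).mp hrel
  rw [coe_eq_of N h, coe_eq_of (N * q) g] at h1
  rcases x with _ | j <;> rcases x₂ with _ | j₂
  · simp only [repZ, dsZ, Matrix.mul_fin_two] at h1
    have h01 := congrFun (congrFun h1 0) 1
    simp at h01
    refine dvd_of_dvd_mul_other hq hr hrq ?_
    rw [h01]
    exact Dvd.intro_left _ rfl
  · simp only [repZ, dsZ, Matrix.mul_fin_two] at h1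
    have h01 := congrFun (congrFun h1 0) 1
    simp at h01
    refine dvd_of_dvd_mul_other hq hr hrq ?_
    rw [h01]
    exact ⟨(g : SL(2, ℤ)) 0 0 * ((j₂ : ℕ) : ℤ) + (g : SL(2, ℤ)) 0 1 * (r : ℤ), by ring⟩
  · simp only [repZ, dsZ, Matrix.mul_fin_two] at h1
    have h01 := congrFun (congrFun h1 0) 1
    simp at h01
    have h3 : (h : SL(2, ℤ)) 0 1 = (g : SL(2, ℤ)) 0 1 * (q : ℤ) -
        ((j : ℕ) : ℤ) * (q : ℤ) * (h : SL(2, ℤ)) 1 1 := by linear_combination h01
    rw [h3]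
    exact ⟨(g : SL(2, ℤ)) 0 1 - ((j : ℕ) : ℤ) * (h : SL(2, ℤ)) 1 1, by ring⟩
  · simp only [repZ, dsZ, Matrix.mul_fin_two] at h1
    have h01 := congrFun (congrFun h1 0) 1
    simp at h01
    have h3 : (h : SL(2, ℤ)) 0 1 = (g : SL(2, ℤ)) 0 0 * (((j₂ : ℕ) : ℤ) * (q : ℤ)) +
        (g : SL(2, ℤ)) 0 1 * ((r : ℤ) * (q : ℤ)) -
        ((j : ℕ) : ℤ) * (q : ℤ) * (h : SL(2, ℤ)) 1 1 := by linear_combination h01
    rw [h3]
    exact ⟨(g : SL(2, ℤ)) 0 0 * ((j₂ : ℕ) : ℤ) + (g : SL(2, ℤ)) 0 1 * (r : ℤ) -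
      ((j : ℕ) : ℤ) * (h : SL(2, ℤ)) 1 1, by ring⟩

end Integral


/-! ### a pair of Hecke coset data at the levels `N` and `N q` with the same representatives -/

/-- coset data at the levels `N` and `N q` whose representatives are the same sub-family
`repT r ∘ f` of the representatives of `T_r`, stable under `j ↦ q j mod r` -/
structure HeckePair (N q r : ℕ) (hr0 : 0 < r) (Y : Type*) where
  /-- the sub-family -/
  f : Y → Option (Fin r)
  f_inj : Function.Injective f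
  /-- the permutation `j ↦ q j mod r` -/
  sig : Y → Y
  f_sig : ∀ y, f (sig y) = sigT q r hr0 (f y)
  /-- the datum at level `N` -/
  DN : CosetData (iota N) Y
  /-- the datum at level `N q` -/
  DM : CosetData (iota (N * q)) Y
  repN : ∀ y, DN.rep y = repT r (f y)
  repM : ∀ y, DM.rep y = repT r (f y)

section Generic

variable {N q r : ℕ} (hq : q.Prime) (hqN : ¬ q ∣ N) (hr : r.Prime) (hrq : r ≠ q)
variable {Y : Type*} [Fintype Y] {hr0 : 0 < r} (P : HeckePair N q r hr0 Y)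

include hr in
theorem HeckePair.sepN (y y' : Y) (g : Gamma0 N) (h : P.DN.rep y = iota N g * P.DN.rep y') :
    y = y' := by
  rw [P.repN, P.repN] at h
  exact P.f_inj (repZ_unique hr.one_lt _ _ _ (relZ_of_rel hr.ne_zero h))

include hr in
theorem HeckePair.sepM (y y' : Y) (g : Gamma0 (N * q))
    (h : P.DM.rep y = iota (N * q) g * P.DM.rep y') : y = y' := by
  rw [P.repM, P.repM] at h
  exact P.f_inj (repZ_unique hr.one_lt _ _ _ (relZ_of_rel hr.ne_zero h))

theorem HeckePair.repM_eq (y : Y) : P.DM.rep y = P.DN.rep y := by rw [P.repM, P.repN]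

include hq hr hrq in
theorem HeckePair.sig_injective : Function.Injective P.sig := by
  intro y y' h
  apply P.f_inj
  apply sigT_injective hr0 ((Nat.coprime_primes hr hq).mpr hrq)
  rw [← P.f_sig, ← P.f_sig, h]

variable {A : Type*} [AddCommGroup A]

include hr in
/-- **`α₁` commutes with `τ_r`** -/
theorem alpha1_comm (φ : Additive (Gamma0 N) →+ A) :
    alpha1 N q (P.DN.heckeHom φ) = P.DM.heckeHom (alpha1 N q φ) := by
  have h1 : alpha1 N q (P.DN.heckeHom φ) =
      (CosetData2.comp (CosetData2.ofCosetData P.DN) (resD N q)).heckeHom φ :=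
    (CosetData2.heckeHom_comp (CosetData2.ofCosetData P.DN) (resD N q) φ).symm
  have h2 : P.DM.heckeHom (alpha1 N q φ) =
      (CosetData2.comp (resD N q) (CosetData2.ofCosetData P.DM)).heckeHom φ :=
    (CosetData2.heckeHom_comp (resD N q) (CosetData2.ofCosetData P.DM) φ).symm
  rw [h1, h2]
  refine congrArg (fun F => F φ) (CosetData2.heckeHom_eq_of_reps
    (CosetData2.comp (resD N q) (CosetData2.ofCosetData P.DM))
    (CosetData2.comp (CosetData2.ofCosetData P.DN) (resD N q))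
    (iota_injective N) ?_ (Equiv.prodComm _ _) (fun _ => 1) ?_)
  · rintro ⟨y, ⟨⟩⟩ ⟨y', ⟨⟩⟩ g h
    have h' : P.DN.rep y * 1 = iota N g * (P.DN.rep y' * 1) := h
    rw [mul_one, mul_one] at h'
    rw [P.sepN hr y y' g h']
  · rintro ⟨⟨⟩, y⟩
    show P.DN.rep y * 1 = iota N 1 * (1 * P.DM.rep y)
    rw [mul_one, map_one, one_mul, one_mul, P.repM_eq]

include hq hr hrq in
/-- **`α₂` commutes with `τ_r`** -/
theorem alpha2_comm (φ : Additive (Gamma0 N) →+ A) :
    alpha2 hq hqN (P.DN.heckeHom φ) = P.DM.heckeHom (alpha2 hq hqN φ) := by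
  have h1 : alpha2 hq hqN (P.DN.heckeHom φ) =
      (CosetData2.comp (CosetData2.ofCosetData P.DN) (conjD hq hqN)).heckeHom φ :=
    (CosetData2.heckeHom_comp (CosetData2.ofCosetData P.DN) (conjD hq hqN) φ).symm
  have h2 : P.DM.heckeHom (alpha2 hq hqN φ) =
      (CosetData2.comp (conjD hq hqN) (CosetData2.ofCosetData P.DM)).heckeHom φ :=
    (CosetData2.heckeHom_comp (conjD hq hqN) (CosetData2.ofCosetData P.DM) φ).symm
  rw [h1, h2]
  -- `δ ρ_y = u_y ρ_{σ y} δ`
  have hstar : ∀ y, heckeDiagMatrix q * P.DM.rep y =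
      iota N (uT N q r (P.f y)) * (P.DN.rep (P.sig y) * heckeDiagMatrix q) := by
    intro y
    rw [P.repM, P.repN, P.f_sig]
    exact diag_mul_repT hq.ne_zero hr0 (P.f y)
  refine congrArg (fun F => F φ) (heckeHom_eq_of_exists
    (CosetData2.comp (conjD hq hqN) (CosetData2.ofCosetData P.DM))
    (CosetData2.comp (CosetData2.ofCosetData P.DN) (conjD hq hqN))
    (iota_injective N) ?_ ?_ ?_ ?_)
  · rintro ⟨⟨⟩, y₁⟩ ⟨⟨⟩, y₂⟩ g h
    have h' : heckeDiagMatrix q * P.DM.rep y₁ = iota N g * (heckeDiagMatrix q * P.DM.rep y₂) := h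
    rw [hstar, hstar, ← mul_assoc, ← mul_assoc, ← mul_assoc] at h'
    have h'' := mul_right_cancel h'
    have h3 : P.DN.rep (P.sig y₁) =
        iota N ((uT N q r (P.f y₁))⁻¹ * g * uT N q r (P.f y₂)) * P.DN.rep (P.sig y₂) := by
      rw [map_mul, map_mul, map_inv, mul_assoc, mul_assoc, ← mul_assoc (iota N g), ← h'',
        inv_mul_cancel_left]
    rw [P.sig_injective hq hr hrq (P.sepN hr _ _ _ h3)]
  · rintro ⟨y, ⟨⟩⟩ ⟨y', ⟨⟩⟩ g h
    have h' : P.DN.rep y * heckeDiagMatrix q =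
        iota N g * (P.DN.rep y' * heckeDiagMatrix q) := h
    rw [← mul_assoc] at h'
    rw [P.sepN hr y y' g (mul_right_cancel h')]
  · rw [Fintype.card_prod, Fintype.card_prod, mul_comm]
  · rintro ⟨⟨⟩, y⟩
    refine ⟨(P.sig y, ()), (uT N q r (P.f y))⁻¹, ?_⟩
    show P.DN.rep (P.sig y) * heckeDiagMatrix q =
      iota N (uT N q r (P.f y))⁻¹ * (heckeDiagMatrix q * P.DM.rep y)
    rw [hstar, map_inv, inv_mul_cancel_left]

include hr in
/-- **the abstract commutation of a corestriction-type operator with `τ_r`** -/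
theorem cores_comm {Xq : Type*} [Fintype Xq] (E : CosetData2 (iota (N * q)) (iota N) Xq)
    (ε : GL (Fin 2) ℝ) (σ : Xq → Gamma0 N) (hE1 : ∀ x, E.rep x = ε * iota N (σ x))
    (κ : Gamma0 (N * q) → Gamma0 N) (hE2 : ∀ g, iota (N * q) g * ε = ε * iota N (κ g))
    (hE3 : ∀ (x x' : Xq) (g : Gamma0 (N * q)), E.rep x = iota (N * q) g * E.rep x' → x = x')
    (x₀ : Xq) (hx₀ : σ x₀ = 1) (uR : Y → Gamma0 N) (sR : Y → Y)
    (hR1 : ∀ y, P.DN.rep y * ε = ε * iota N (uR y) * P.DN.rep (sR y))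
    (hS : ∀ (y y₂ : Y) (h : Gamma0 N) (g : Gamma0 (N * q)),
      P.DN.rep y * ε * iota N h = iota (N * q) g * (P.DN.rep y₂ * ε) →
        ∃ g' : Gamma0 (N * q), ε * iota N h = iota (N * q) g' * ε)
    (ψ : Additive (Gamma0 (N * q)) →+ A) :
    E.heckeHom (P.DM.heckeHom ψ) = P.DN.heckeHom (E.heckeHom ψ) := by
  have h1 : E.heckeHom (P.DM.heckeHom ψ) =
      (CosetData2.comp (CosetData2.ofCosetData P.DM) E).heckeHom ψ :=
    (CosetData2.heckeHom_comp (CosetData2.ofCosetData P.DM) E ψ).symm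
  have h2 : P.DN.heckeHom (E.heckeHom ψ) =
      (CosetData2.comp E (CosetData2.ofCosetData P.DN)).heckeHom ψ :=
    (CosetData2.heckeHom_comp E (CosetData2.ofCosetData P.DN) ψ).symm
  rw [h1, h2]
  refine (congrArg (fun F => F ψ) (heckeHom_eq_of_exists
    (CosetData2.comp (CosetData2.ofCosetData P.DM) E)
    (CosetData2.comp E (CosetData2.ofCosetData P.DN))
    (iota_injective (N * q)) ?_ ?_ ?_ ?_)).symm
  · -- separation of `ρ_y e_x`
    rintro ⟨y, x⟩ ⟨y₂, x₂⟩ g h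
    have h' : P.DM.rep y * E.rep x = iota (N * q) g * (P.DM.rep y₂ * E.rep x₂) := h
    have h3 : P.DN.rep y * ε * iota N (σ x * (σ x₂)⁻¹) =
        iota (N * q) g * (P.DN.rep y₂ * ε) := by
      rw [P.repM_eq, P.repM_eq, hE1, hE1] at h'
      rw [map_mul, map_inv, ← mul_assoc, mul_inv_eq_iff_eq_mul, mul_assoc (P.DN.rep y), h']
      simp only [mul_assoc]
    obtain ⟨g', hg'⟩ := hS y y₂ _ g h3
    have h4 : E.rep x = iota (N * q) g' * E.rep x₂ := by
      rw [hE1, hE1, ← mul_assoc, ← hg', mul_assoc, ← map_mul, inv_mul_cancel_right]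
    have hx : x = x₂ := hE3 x x₂ g' h4
    subst hx
    rw [← mul_assoc] at h'
    have hy : y = y₂ := P.sepM hr y y₂ g (mul_right_cancel h')
    rw [hy]
  · -- separation of `e_x ρ_y`
    rintro ⟨x, y⟩ ⟨x₂, y₂⟩ g h
    have h' : E.rep x * P.DN.rep y = iota (N * q) g * (E.rep x₂ * P.DN.rep y₂) := h
    have h3 : P.DN.rep y = iota N ((σ x)⁻¹ * κ g * σ x₂) * P.DN.rep y₂ := by
      have h5 := h'
      rw [hE1, hE1, ← mul_assoc, ← mul_assoc, hE2, mul_assoc, mul_assoc, mul_assoc] at h5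
      have h6 := mul_left_cancel h5
      rw [map_mul, map_mul, map_inv, mul_assoc, mul_assoc, ← h6, inv_mul_cancel_left]
    have hy : y = y₂ := P.sepN hr y y₂ _ h3
    subst hy
    rw [← mul_assoc] at h'
    have hx : x = x₂ := hE3 x x₂ g (mul_right_cancel h')
    rw [hx]
  · rw [Fintype.card_prod, Fintype.card_prod, mul_comm]
  · -- existence
    rintro ⟨y, x⟩
    set c : Gamma0 N := uR y * P.DN.coc (σ x) (sR y) with hc
    refine ⟨(E.perm c x₀, P.DN.perm (σ x) (sR y)), (E.coc c x₀)⁻¹, ?_⟩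
    show E.rep (E.perm c x₀) * P.DN.rep (P.DN.perm (σ x) (sR y)) =
      iota (N * q) (E.coc c x₀)⁻¹ * (P.DM.rep y * E.rep x)
    have hx₀' : E.rep x₀ = ε := by rw [hE1, hx₀, map_one, mul_one]
    have h5 : P.DM.rep y * E.rep x =
        iota (N * q) (E.coc c x₀) * E.rep (E.perm c x₀) *
          P.DN.rep (P.DN.perm (σ x) (sR y)) := by
      rw [← E.rel c x₀, hx₀', hc, map_mul, P.repM_eq, hE1, ← mul_assoc, hR1, mul_assoc,
        P.DN.rel (σ x) (sR y)]
      simp only [mul_assoc]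
    rw [h5, map_inv, mul_assoc, inv_mul_cancel_left]


theorem sStar_some_zero : sStar hq hqN (some ⟨0, hq.pos⟩) = 1 := by
  apply Subtype.ext
  apply Subtype.ext
  show !![(1 : ℤ), ((0 : ℕ) : ℤ); 0, 1] = 1
  rw [Matrix.one_fin_two]
  simp

include hr hrq in
/-- **`β₁` commutes with `τ_r`** -/
theorem beta1_comm (ψ : Additive (Gamma0 (N * q)) →+ A) :
    beta1 hq hqN (P.DM.heckeHom ψ) = P.DN.heckeHom (beta1 hq hqN ψ) := by
  unfold beta1
  refine cores_comm hr P (coresD hq hqN) 1 (sRep hq hqN) (fun x => (one_mul _).symm) (inclQ N q)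
    (fun g => by rw [mul_one, one_mul]; rfl) (NewAtQ.sRep_sep hq hqN) none rfl (fun _ => 1) id
    (fun y => by rw [mul_one, one_mul, map_one, one_mul]; rfl) ?_ ψ
  intro y y₂ h g hrel
  rw [mul_one, mul_one, P.repN, P.repN] at hrel
  exact ⟨⟨(h : SL(2, ℤ)), mem_of_rel_incl hq hqN hr hrq _ _ h g hrel⟩, by
    rw [one_mul, mul_one]; rfl⟩

include hr hrq in
/-- **`β₂` commutes with `τ_r`** -/
theorem beta2_comm (ψ : Additive (Gamma0 (N * q)) →+ A) :
    beta2 hq hqN (P.DM.heckeHom ψ) = P.DN.heckeHom (beta2 hq hqN ψ) := by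
  unfold beta2
  refine cores_comm hr P (coresStarD hq hqN) (heckeMatrix q 0) (sStar hq hqN) (fun x => rfl)
    (conjQ hq hqN) (iota_mul_star hq hqN) (NewAtQ.sStar_sep hq hqN) (some ⟨0, hq.pos⟩)
    (sStar_some_zero hq hqN) (fun y => uT N q r (P.f y)) P.sig ?_ ?_ ψ
  · intro y
    rw [P.repN, P.repN, P.f_sig]
    exact repT_mul_star hq.ne_zero hr0 (P.f y)
  · intro y y₂ h g hrel
    rw [P.repN, P.repN] at hrel
    exact exists_star_conj hq h (dvd_of_rel_star hq hr hrq _ _ h g hrel)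

end Generic


/-! ### the two instances: `T_r` (`r ∤ N q`) and `U_r` (`r ∣ N`) -/

section Instances

variable {N q r : ℕ}

/-- the pair of `T_r` at the levels `N` and `N q` -/
def pairT (q : ℕ) (hr : r.Prime) (hrN : ¬ r ∣ N) (hrM : ¬ r ∣ N * q) :
    HeckePair N q r hr.pos (Option (Fin r)) where
  f := id
  f_inj := Function.injective_id
  sig := sigT q r hr.pos
  f_sig _ := rfl
  DN := cosetT hr hrN
  DM := cosetT hr hrM
  repN _ := rfl
  repM _ := rfl

/-- the pair of `U_r` at the levels `N` and `N q` -/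
def pairU (q : ℕ) (hr : r.Prime) (hrN : r ∣ N) (hrM : r ∣ N * q) :
    HeckePair N q r hr.pos (Fin r) where
  f := some
  f_inj := Option.some_injective _
  sig j := ⟨(q * (j : ℕ)) % r, Nat.mod_lt _ hr.pos⟩
  f_sig _ := rfl
  DN := cosetU hr hrN
  DM := cosetU hr hrM
  repN _ := rfl
  repM _ := rfl

variable (hq : q.Prime) (hqN : ¬ q ∣ N) (hr : r.Prime) (hrq : r ≠ q)
variable {A : Type*} [AddCommGroup A]

include hq hr hrq in
theorem not_dvd_mul_of_not_dvd (h : ¬ r ∣ N) : ¬ r ∣ N * q := by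
  intro hd
  rcases (Nat.Prime.dvd_mul hr).mp hd with h1 | h1
  · exact h h1
  · exact hrq ((Nat.prime_dvd_prime_iff_eq hr hq).mp h1)

include hq hrq in
/-- **`α₁ τ_r = τ_r α₁`** -/
theorem alpha1_tauAll (φ : Additive (Gamma0 N) →+ A) :
    alpha1 N q (tauAll N r hr φ) = tauAll (N * q) r hr (alpha1 N q φ) := by
  unfold tauAll
  by_cases h : r ∣ N
  · have hM : r ∣ N * q := Dvd.dvd.mul_right h q
    rw [dif_pos h, dif_pos hM]
    exact alpha1_comm hr (pairU q hr h hM) φ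
  · have hM : ¬ r ∣ N * q := not_dvd_mul_of_not_dvd hq hr hrq h
    rw [dif_neg h, dif_neg hM]
    exact alpha1_comm hr (pairT q hr h hM) φ

include hrq in
/-- **`α₂ τ_r = τ_r α₂`** -/
theorem alpha2_tauAll (φ : Additive (Gamma0 N) →+ A) :
    alpha2 hq hqN (tauAll N r hr φ) = tauAll (N * q) r hr (alpha2 hq hqN φ) := by
  unfold tauAll
  by_cases h : r ∣ N
  · have hM : r ∣ N * q := Dvd.dvd.mul_right h q
    rw [dif_pos h, dif_pos hM]
    exact alpha2_comm hq hqN hr hrq (pairU q hr h hM) φ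
  · have hM : ¬ r ∣ N * q := not_dvd_mul_of_not_dvd hq hr hrq h
    rw [dif_neg h, dif_neg hM]
    exact alpha2_comm hq hqN hr hrq (pairT q hr h hM) φ

include hrq in
/-- **`β₁ τ_r = τ_r β₁`** -/
theorem beta1_tauAll (ψ : Additive (Gamma0 (N * q)) →+ A) :
    beta1 hq hqN (tauAll (N * q) r hr ψ) = tauAll N r hr (beta1 hq hqN ψ) := by
  unfold tauAll
  by_cases h : r ∣ N
  · have hM : r ∣ N * q := Dvd.dvd.mul_right h q
    rw [dif_pos h, dif_pos hM]
    exact beta1_comm hq hqN hr hrq (pairU q hr h hM) ψ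
  · have hM : ¬ r ∣ N * q := not_dvd_mul_of_not_dvd hq hr hrq h
    rw [dif_neg h, dif_neg hM]
    exact beta1_comm hq hqN hr hrq (pairT q hr h hM) ψ

include hrq in
/-- **`β₂ τ_r = τ_r β₂`** -/
theorem beta2_tauAll (ψ : Additive (Gamma0 (N * q)) →+ A) :
    beta2 hq hqN (tauAll (N * q) r hr ψ) = tauAll N r hr (beta2 hq hqN ψ) := by
  unfold tauAll
  by_cases h : r ∣ N
  · have hM : r ∣ N * q := Dvd.dvd.mul_right h q
    rw [dif_pos h, dif_pos hM]
    exact beta2_comm hq hqN hr hrq (pairU q hr h hM) ψ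
  · have hM : ¬ r ∣ N * q := not_dvd_mul_of_not_dvd hq hr hrq h
    rw [dif_neg h, dif_neg hM]
    exact beta2_comm hq hqN hr hrq (pairT q hr h hM) ψ

end Instances

/-! ### the bundled versions on parabolic homomorphisms -/

section Bundled

variable {N q r : ℕ} (hq : q.Prime) (hqN : ¬ q ∣ N) (hr : r.Prime) (hrq : r ≠ q)
variable (R : Type*) [Semiring R] (A : Type*) [AddCommGroup A] [Module R A]

include hq hrq in
theorem alphaPar1_tauPar (x : parabolicHoms R (Gamma0 N) A) :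
    alphaPar1 R A N q (tauPar R A N r hr x) = tauPar R A (N * q) r hr (alphaPar1 R A N q x) := by
  apply Subtype.ext
  rw [coe_alphaPar1, coe_tauPar, coe_tauPar, coe_alphaPar1]
  exact alpha1_tauAll hq hr hrq _

include hrq in
theorem alphaPar2_tauPar (x : parabolicHoms R (Gamma0 N) A) :
    alphaPar2 hq hqN R A (tauPar R A N r hr x) =
      tauPar R A (N * q) r hr (alphaPar2 hq hqN R A x) := by
  apply Subtype.ext
  rw [coe_alphaPar2, coe_tauPar, coe_tauPar, coe_alphaPar2]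
  exact alpha2_tauAll hq hqN hr hrq _

include hrq in
theorem betaPar1_tauPar (y : parabolicHoms R (Gamma0 (N * q)) A) :
    betaPar1 hq hqN R A (tauPar R A (N * q) r hr y) =
      tauPar R A N r hr (betaPar1 hq hqN R A y) := by
  apply Subtype.ext
  rw [coe_betaPar1, coe_tauPar, coe_tauPar, coe_betaPar1]
  exact beta1_tauAll hq hqN hr hrq _

include hrq in
theorem betaPar2_tauPar (y : parabolicHoms R (Gamma0 (N * q)) A) :
    betaPar2 hq hqN R A (tauPar R A (N * q) r hr y) =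
      tauPar R A N r hr (betaPar2 hq hqN R A y) := by
  apply Subtype.ext
  rw [coe_betaPar2, coe_tauPar, coe_tauPar, coe_betaPar2]
  exact beta2_tauAll hq hqN hr hrq _

end Bundled

/-- **the seam `DegComm` of `S41/Lift`, literally** -/
theorem degComm {N q : ℕ} (hq : q.Prime) (hqN : ¬ q ∣ N) :
    ∀ (r : ℕ) (hr : r.Prime), r ≠ q →
      (∀ x : parabolicHoms ℤ (Gamma0 N) ℤ, alphaPar1 ℤ ℤ N q (tauPar ℤ ℤ N r hr x) =
          tauPar ℤ ℤ (N * q) r hr (alphaPar1 ℤ ℤ N q x)) ∧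
      (∀ x : parabolicHoms ℤ (Gamma0 N) ℤ, alphaPar2 hq hqN ℤ ℤ (tauPar ℤ ℤ N r hr x) =
          tauPar ℤ ℤ (N * q) r hr (alphaPar2 hq hqN ℤ ℤ x)) ∧
      (∀ y : parabolicHoms ℤ (Gamma0 (N * q)) ℤ,
        betaPar1 hq hqN ℤ ℤ (tauPar ℤ ℤ (N * q) r hr y) =
          tauPar ℤ ℤ N r hr (betaPar1 hq hqN ℤ ℤ y)) ∧
      (∀ y : parabolicHoms ℤ (Gamma0 (N * q)) ℤ,
        betaPar2 hq hqN ℤ ℤ (tauPar ℤ ℤ (N * q) r hr y) =
          tauPar ℤ ℤ N r hr (betaPar2 hq hqN ℤ ℤ y)) :=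
  fun _ hr hrq => ⟨alphaPar1_tauPar hq hr hrq ℤ ℤ, alphaPar2_tauPar hq hqN hr hrq ℤ ℤ,
    betaPar1_tauPar hq hqN hr hrq ℤ ℤ, betaPar2_tauPar hq hqN hr hrq ℤ ℤ⟩

end Fermat.Agent.S41.Deg.HeckeComm
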